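import Mathlib.NumberTheory.NumberField.Basic
import Mathlib.NumberTheory.FLT.Basic
import Mathlib.Algebra.Polynomial.Derivative
import Mathlib.Algebra.Polynomial.BigOperators
import Mathlib.Data.ZMod.Basic

/-!
# FLT for the small regular primes 5, 7, 11, 13: shared definitions

Route (serves S10 and S11): a `FreyPackage` with `p ∈ {5, 7, 11, 13}` contradicts Fermat's Last
Theorem for exponent `p`, which we prove à la Kummer:

* first case (`p ∤ abc`): Sophie Germain's theorem with an auxiliary prime `q`;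
* second case: descent in `𝓞 K = ℤ[ζ_p]` (a PID for these `p`), using Kummer's lemma;
* Kummer's lemma: via Kummer's logarithmic derivative and an explicit independence certificate
  (`KummerCert p`) for the cyclotomic units `1 + ζ + ⋯ + ζ^(a-1)`, `2 ≤ a ≤ (p-1)/2`, and `ζ`.
-/

set_option autoImplicit false

namespace Fermat.Agent.Lib.FltSmall

open NumberField Polynomial

/-- Kummer's lemma for the prime `p` and the `p`-th cyclotomic field `K`:
a unit of `𝓞 K` congruent to a rational integer modulo `p` is a `p`-th power. -/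
def KummersLemma (p : ℕ) (K : Type*) [Field K] [NumberField K] : Prop :=
  ∀ (u : (𝓞 K)ˣ) (a : ℤ), (p : 𝓞 K) ∣ (u : 𝓞 K) - (a : 𝓞 K) → ∃ v : (𝓞 K)ˣ, u = v ^ p

/-- First case of Fermat's Last Theorem for the exponent `p`. -/
def CaseI (p : ℕ) : Prop :=
  ∀ a b c : ℤ, ¬ (p : ℤ) ∣ a * b * c → a ^ p + b ^ p ≠ c ^ p

/-- The polynomial `1 + X + ⋯ + X^(a-1)` over `ZMod p`; its value at `ζ` is the cyclotomic unit
`(ζ^a - 1)/(ζ - 1)`. -/
noncomputable def gpoly (p a : ℕ) : (ZMod p)[X] := ∑ j ∈ Finset.range a, X ^ j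

/-- The numerator of `e 1 • dlog ζ + ∑_{a=2}^{(p-1)/2} e a • dlog (gpoly a)(ζ)` (where
`dlog f = X f' / f`) after multiplication by the common denominator `∏_b gpoly b`. -/
noncomputable def kummerPoly (p : ℕ) (e : ℕ → ℤ) : (ZMod p)[X] :=
  C (e 1 : ZMod p) * ∏ b ∈ Finset.Icc 2 ((p - 1) / 2), gpoly p b +
    ∑ a ∈ Finset.Icc 2 ((p - 1) / 2), C (e a : ZMod p) *
      (X * derivative (gpoly p a) * ∏ b ∈ (Finset.Icc 2 ((p - 1) / 2)).erase a, gpoly p b)

/-- Independence certificate (Kummer's criterion, checked by hand for a given `p`): the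
logarithmic derivatives of `ζ` and of the cyclotomic units `gpoly a (ζ)`, `2 ≤ a ≤ (p-1)/2`,
are `𝔽_p`-linearly independent modulo `(p, (ζ - 1)^(p-2))`. -/
def KummerCert (p : ℕ) : Prop :=
  ∀ e : ℕ → ℤ, (X - 1 : (ZMod p)[X]) ^ (p - 2) ∣ kummerPoly p e →
    ∀ a ∈ Finset.Icc 1 ((p - 1) / 2), (p : ℤ) ∣ e a

end Fermat.Agent.Lib.FltSmall
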