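import Mathlib
import Fermat.Agent.Lib.FltSmall.Defs

/-!
# The independence certificate `KummerCert 11`

(`KummerCert 5`, `KummerCert 7` are in `KummerCertSmall.lean`, `KummerCert 13` in `KummerCert13.lean`.)

`kummerPoly p e` is expanded exactly in powers of `X - 1` (integer Taylor coefficients, checked by
`ring`); divisibility by `(X - 1)^(p-2)` then gives `p - 2` linear congruences modulo `p` for the
`e a`, and the system has full rank modulo `p`.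
-/

set_option autoImplicit false
set_option linter.unusedSimpArgs false
set_option linter.unnecessarySeqFocus false
set_option linter.unreachableTactic false
set_option linter.unusedTactic false

namespace Fermat.Agent.Lib.FltSmall

open Polynomial

/-- Shifting the variable: if `(X - 1)^n ∣ P` then `X^n ∣ P.comp (X + 1)`. -/
theorem X_pow_dvd_comp_of_sub_one_pow_dvd {R : Type*} [CommRing R] {P : R[X]} {n : ℕ}
    (h : (X - 1 : R[X]) ^ n ∣ P) : (X : R[X]) ^ n ∣ P.comp (X + 1) := by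
  obtain ⟨Q, rfl⟩ := h
  refine ⟨Q.comp (X + 1), ?_⟩
  simp

/-- Reading off the Taylor coefficients at `1` modulo `p`. -/
theorem dvd_of_sub_one_pow_dvd_sum (p : ℕ) (c : ℕ → ℤ) (N n : ℕ)
    (h : (X - 1 : (ZMod p)[X]) ^ n ∣
      ∑ k ∈ Finset.range N, C ((c k : ℤ) : ZMod p) * (X - 1) ^ k)
    (k : ℕ) (hk : k < n) (hkN : k < N) : (p : ℤ) ∣ c k := by
  have h2 := X_pow_dvd_comp_of_sub_one_pow_dvd h
  rw [X_pow_dvd_iff] at h2
  have h3 := h2 k hk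
  rw [Polynomial.sum_comp, Polynomial.finsetSum_coeff] at h3
  simp only [mul_comp, C_comp, pow_comp, sub_comp, X_comp, one_comp, add_sub_cancel_right,
    coeff_C_mul_X_pow] at h3
  rw [Finset.sum_ite_eq (Finset.range N) k, if_pos (Finset.mem_range.mpr hkN)] at h3
  exact (ZMod.intCast_zmod_eq_zero_iff_dvd _ p).mp h3

theorem kcert_hI_eleven : Finset.Icc 2 ((11 - 1) / 2) = {2, 3, 4, 5} := by decide

theorem kcert_hQ1_eleven : ∏ b ∈ ({2, 3, 4, 5} : Finset ℕ), gpoly 11 b =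
    (120 + 600 * (X - 1) + 1450 * (X - 1) ^ 2 + 2200 * (X - 1) ^ 3 + 2299 * (X - 1) ^ 4 + 1717 * (X - 1) ^ 5 + 923 * (X - 1) ^ 6 + 351 * (X - 1) ^ 7 + 90 * (X - 1) ^ 8 + 14 * (X - 1) ^ 9 + (X - 1) ^ 10 : (ZMod 11)[X]) := by
  simp [gpoly, Finset.sum_range_succ] <;> ring

theorem kcert_hQ2_eleven : X * derivative (gpoly 11 2) *
    ∏ b ∈ ({2, 3, 4, 5} : Finset ℕ).erase 2, gpoly 11 b =
    (60 + 330 * (X - 1) + 860 * (X - 1) ^ 2 + 1395 * (X - 1) ^ 3 + 1552 * (X - 1) ^ 4 + 1232 * (X - 1) ^ 5 + 704 * (X - 1) ^ 6 + 285 * (X - 1) ^ 7 + 78 * (X - 1) ^ 8 + 13 * (X - 1) ^ 9 + (X - 1) ^ 10 : (ZMod 11)[X]) := by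
  rw [show ({2, 3, 4, 5} : Finset ℕ).erase 2 = {3, 4, 5} from by decide]
  simp [gpoly, Finset.sum_range_succ, map_ofNat] <;> ring

theorem kcert_hQ3_eleven : X * derivative (gpoly 11 3) *
    ∏ b ∈ ({2, 3, 4, 5} : Finset ℕ).erase 3, gpoly 11 b =
    (120 + 680 * (X - 1) + 1810 * (X - 1) ^ 2 + 2980 * (X - 1) ^ 3 + 3349 * (X - 1) ^ 4 + 2673 * (X - 1) ^ 5 + 1528 * (X - 1) ^ 6 + 615 * (X - 1) ^ 7 + 166 * (X - 1) ^ 8 + 27 * (X - 1) ^ 9 + 2 * (X - 1) ^ 10 : (ZMod 11)[X]) := by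
  rw [show ({2, 3, 4, 5} : Finset ℕ).erase 3 = {2, 4, 5} from by decide]
  simp [gpoly, Finset.sum_range_succ, map_ofNat] <;> ring

theorem kcert_hQ4_eleven : X * derivative (gpoly 11 4) *
    ∏ b ∈ ({2, 3, 4, 5} : Finset ℕ).erase 4, gpoly 11 b =
    (180 + 1050 * (X - 1) + 2850 * (X - 1) ^ 2 + 4745 * (X - 1) ^ 3 + 5356 * (X - 1) ^ 4 + 4268 * (X - 1) ^ 5 + 2422 * (X - 1) ^ 6 + 963 * (X - 1) ^ 7 + 256 * (X - 1) ^ 8 + 41 * (X - 1) ^ 9 + 3 * (X - 1) ^ 10 : (ZMod 11)[X]) := by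
  rw [show ({2, 3, 4, 5} : Finset ℕ).erase 4 = {2, 3, 5} from by decide]
  simp [gpoly, Finset.sum_range_succ, map_ofNat] <;> ring

theorem kcert_hQ5_eleven : X * derivative (gpoly 11 5) *
    ∏ b ∈ ({2, 3, 4, 5} : Finset ℕ).erase 5, gpoly 11 b =
    (240 + 1440 * (X - 1) + 3980 * (X - 1) ^ 2 + 6676 * (X - 1) ^ 3 + 7524 * (X - 1) ^ 4 + 5950 * (X - 1) ^ 5 + 3341 * (X - 1) ^ 6 + 1314 * (X - 1) ^ 7 + 346 * (X - 1) ^ 8 + 55 * (X - 1) ^ 9 + 4 * (X - 1) ^ 10 : (ZMod 11)[X]) := by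
  rw [show ({2, 3, 4, 5} : Finset ℕ).erase 5 = {2, 3, 4} from by decide]
  simp [gpoly, Finset.sum_range_succ, map_ofNat] <;> ring

theorem kummerCert_eleven : KummerCert 11 := by
  intro e h a ha
  have ha' : a = 1 ∨ a = 2 ∨ a = 3 ∨ a = 4 ∨ a = 5 := by
    simp only [Finset.mem_Icc] at ha; omega
  clear ha
  have key : kummerPoly 11 e = ∑ k ∈ Finset.range 11,
      C ((([120 * e 1 + 60 * e 2 + 120 * e 3 + 180 * e 4 + 240 * e 5,
        600 * e 1 + 330 * e 2 + 680 * e 3 + 1050 * e 4 + 1440 * e 5,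
        1450 * e 1 + 860 * e 2 + 1810 * e 3 + 2850 * e 4 + 3980 * e 5,
        2200 * e 1 + 1395 * e 2 + 2980 * e 3 + 4745 * e 4 + 6676 * e 5,
        2299 * e 1 + 1552 * e 2 + 3349 * e 3 + 5356 * e 4 + 7524 * e 5,
        1717 * e 1 + 1232 * e 2 + 2673 * e 3 + 4268 * e 4 + 5950 * e 5,
        923 * e 1 + 704 * e 2 + 1528 * e 3 + 2422 * e 4 + 3341 * e 5,
        351 * e 1 + 285 * e 2 + 615 * e 3 + 963 * e 4 + 1314 * e 5,
        90 * e 1 + 78 * e 2 + 166 * e 3 + 256 * e 4 + 346 * e 5,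
        14 * e 1 + 13 * e 2 + 27 * e 3 + 41 * e 4 + 55 * e 5,
        e 1 + e 2 + 2 * e 3 + 3 * e 4 + 4 * e 5] : List ℤ).getD k 0 : ℤ) : ZMod 11) * (X - 1) ^ k := by
    unfold kummerPoly
    rw [kcert_hI_eleven, kcert_hQ1_eleven]
    rw [Finset.sum_insert (show (2 : ℕ) ∉ ({3, 4, 5} : Finset ℕ) by decide), Finset.sum_insert (show (3 : ℕ) ∉ ({4, 5} : Finset ℕ) by decide), Finset.sum_insert (show (4 : ℕ) ∉ ({5} : Finset ℕ) by decide), Finset.sum_singleton, kcert_hQ2_eleven, kcert_hQ3_eleven, kcert_hQ4_eleven, kcert_hQ5_eleven]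
    generalize (X - 1 : (ZMod 11)[X]) = T
    simp only [Finset.sum_range_succ, Finset.sum_range_zero, List.getD_cons_zero,
      List.getD_cons_succ, Int.cast_add, Int.cast_mul, Int.cast_ofNat, C_add, C_mul, C_ofNat]
    ring
  rw [key] at h
  have c0 := dvd_of_sub_one_pow_dvd_sum 11 _ _ _ h 0 (by norm_num) (by norm_num)
  have c1 := dvd_of_sub_one_pow_dvd_sum 11 _ _ _ h 1 (by norm_num) (by norm_num)
  have c2 := dvd_of_sub_one_pow_dvd_sum 11 _ _ _ h 2 (by norm_num) (by norm_num)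
  have c3 := dvd_of_sub_one_pow_dvd_sum 11 _ _ _ h 3 (by norm_num) (by norm_num)
  have c4 := dvd_of_sub_one_pow_dvd_sum 11 _ _ _ h 4 (by norm_num) (by norm_num)
  have c5 := dvd_of_sub_one_pow_dvd_sum 11 _ _ _ h 5 (by norm_num) (by norm_num)
  have c6 := dvd_of_sub_one_pow_dvd_sum 11 _ _ _ h 6 (by norm_num) (by norm_num)
  have c7 := dvd_of_sub_one_pow_dvd_sum 11 _ _ _ h 7 (by norm_num) (by norm_num)
  have c8 := dvd_of_sub_one_pow_dvd_sum 11 _ _ _ h 8 (by norm_num) (by norm_num)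
  simp only [List.getD_cons_zero, List.getD_cons_succ, Nat.cast_ofNat] at c0 c1 c2 c3 c4 c5 c6 c7 c8
  obtain ⟨q0, hq0⟩ := c0
  obtain ⟨q1, hq1⟩ := c1
  obtain ⟨q2, hq2⟩ := c2
  obtain ⟨q3, hq3⟩ := c3
  obtain ⟨q4, hq4⟩ := c4
  obtain ⟨q5, hq5⟩ := c5
  obtain ⟨q6, hq6⟩ := c6
  obtain ⟨q7, hq7⟩ := c7
  obtain ⟨q8, hq8⟩ := c8
  rcases ha' with rfl | rfl | rfl | rfl | rfl <;> simp only [Nat.cast_ofNat]
  · exact ⟨5 * q1 + 10 * q3 + 6 * q5 + 2 * q7 - (3273 * e 1 + 2142 * e 2 + 4588 * e 3 + 7294 * e 4 + 10208 * e 5),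
      by linear_combination 5 * hq1 + 10 * hq3 + 6 * hq5 + 2 * hq7⟩
  · exact ⟨8 * q0 + 3 * q1 + 9 * q3 + 10 * q7 - (2370 * e 1 + 1534 * e 2 + 3270 * e 3 + 5175 * e 4 + 7224 * e 5),
      by linear_combination 8 * hq0 + 3 * hq1 + 9 * hq3 + 10 * hq7⟩
  · exact ⟨1 * q0 + 10 * q1 + 5 * q3 + 2 * q5 + 6 * q7 - (2060 * e 1 + 1319 * e 2 + 2805 * e 3 + 4429 * e 4 + 6164 * e 5),
      by linear_combination 1 * hq0 + 10 * hq1 + 5 * hq3 + 2 * hq5 + 6 * hq7⟩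
  · exact ⟨7 * q0 + 8 * q1 + 3 * q3 + 10 * q5 + 7 * q7 - (2897 * e 1 + 1960 * e 2 + 4205 * e 3 + 6665 * e 4 + 9266 * e 5),
      by linear_combination 7 * hq0 + 8 * hq1 + 3 * hq3 + 10 * hq5 + 7 * hq7⟩
  · exact ⟨5 * q1 + 10 * q3 + 5 * q5 + 2 * q7 - (3117 * e 1 + 2030 * e 2 + 4345 * e 3 + 6906 * e 4 + 9667 * e 5),
      by linear_combination 5 * hq1 + 10 * hq3 + 5 * hq5 + 2 * hq7⟩

end Fermat.Agent.Lib.FltSmall
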