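import Mathlib
import Fermat.Agent.Lib.FltSmall.Defs
import Fermat.Agent.S11.CaseIICyclo

/-!
# FLT-small W7: glue from the integers to `ℤ[ζ_p]`

Second case of Fermat's Last Theorem for a regular prime `p` (`𝓞 K` a PID and Kummer's lemma),
and Fermat's Last Theorem for `p` from the first case and Kummer's lemma.

The descent in `𝓞 K` itself is `Fermat.Agent.S11.KummerSetup.caseII_abstract`
(`Fermat/Agent/S11/CaseII.lean`, instantiated in `Fermat/Agent/S11/CaseIICyclo.lean`); here we
only translate between the two (equivalent) formulations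
`Fermat.Agent.Lib.FltSmall.KummersLemma p K` and `Fermat.Agent.S11.KummerLemma (𝓞 K) p` and do
the elementary integer bookkeeping.
-/

set_option autoImplicit false

namespace Fermat.Agent.Lib.FltSmall

open NumberField

/-- The two formulations of Kummer's lemma agree. -/
theorem kummersLemma_iff_kummerLemma (p : ℕ) (K : Type*) [Field K] [NumberField K] :
    KummersLemma p K ↔ Fermat.Agent.S11.KummerLemma (𝓞 K) p := by
  constructor
  · rintro h u ⟨n, hn⟩
    exact h u n hn
  · intro h u a ha
    exact h u ⟨a, ha⟩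

/-- In a solution of the Fermat equation, coprimality of `a, b` gives coprimality of `a, c`. -/
theorem isCoprime_left_of_fermat {p : ℕ} (hp0 : 0 < p) {a b c : ℤ} (hab : IsCoprime a b)
    (h : a ^ p + b ^ p = c ^ p) : IsCoprime a c := by
  rw [← IsCoprime.pow_iff (m := p) (n := p) hp0 hp0, ← h]
  have h1 : IsCoprime (a ^ p) (b ^ p) := hab.pow
  have h2 := h1.add_mul_left_right 1
  rwa [mul_one, add_comm] at h2

/-- Pairwise coprimality of a primitive solution of the Fermat equation. -/
theorem isCoprime_of_gcd_eq_one_of_fermat {p : ℕ} {a b c : ℤ}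
    (hgcd : ({a, b, c} : Finset ℤ).gcd id = 1) (hodd : Odd p) (h : a ^ p + b ^ p = c ^ p) :
    IsCoprime a b := by
  have h' : a ^ p + b ^ p + (-c) ^ p = 0 := by rw [hodd.neg_pow]; linarith
  refine isCoprime_of_gcd_eq_one_of_FLT (c := -c) ?_ h'
  have e : ({a, b, -c} : Finset ℤ).gcd id = ({a, b, c} : Finset ℤ).gcd id := by
    have hn : normalize (-c) = normalize c := normalize_eq_normalize (by simp) (by simp)
    simp only [Finset.gcd_insert, Finset.gcd_singleton, id_eq, hn]
  rw [e, hgcd]

/-- **Second case of Fermat's Last Theorem** for an odd prime `p` such that `ℤ[ζ_p]` is a PID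
and Kummer's lemma holds. -/
theorem caseII {p : ℕ} [Fact p.Prime] (hp : p ≠ 2) {K : Type} [Field K] [NumberField K]
    [IsCyclotomicExtension {p} ℚ K] [IsPrincipalIdealRing (𝓞 K)] (hKL : KummersLemma p K)
    {a b c : ℤ} (habc : a * b * c ≠ 0) (hgcd : ({a, b, c} : Finset ℤ).gcd id = 1)
    (hdvd : (p : ℤ) ∣ a * b * c) : a ^ p + b ^ p ≠ c ^ p := by
  intro h
  have hpp : p.Prime := Fact.out
  have hp3 : 3 ≤ p := by
    have := hpp.two_le
    omega
  have hodd : Odd p := hpp.odd_of_ne_two hp
  have hKL' : Fermat.Agent.S11.KummerLemma (𝓞 K) p := (kummersLemma_iff_kummerLemma p K).mp hKL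
  have ha : a ≠ 0 := fun h0 => habc (by simp [h0])
  have hb : b ≠ 0 := fun h0 => habc (by simp [h0])
  have hc : c ≠ 0 := fun h0 => habc (by simp [h0])
  have hab : IsCoprime a b := isCoprime_of_gcd_eq_one_of_fermat hgcd hodd h
  have hac : IsCoprime a c := isCoprime_left_of_fermat hpp.pos hab h
  have hbc : IsCoprime b c := isCoprime_left_of_fermat hpp.pos hab.symm (by linarith)
  have hp' : Prime (p : ℤ) := Nat.prime_iff_prime_int.mp hpp
  rcases hp'.dvd_or_dvd hdvd with h1 | h1
  · rcases hp'.dvd_or_dvd h1 with h2 | h2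
    · -- `p ∣ a`: `c ^ p + (-b) ^ p = a ^ p`
      refine Fermat.Agent.S11.caseII_int K hp3 hKL' (a := c) (b := -b) (c := a)
        hbc.symm.neg_right ha h2 ?_
      rw [hodd.neg_pow]; linarith
    · -- `p ∣ b`: `c ^ p + (-a) ^ p = b ^ p`
      refine Fermat.Agent.S11.caseII_int K hp3 hKL' (a := c) (b := -a) (c := b)
        hac.symm.neg_right hb h2 ?_
      rw [hodd.neg_pow]; linarith
  · exact Fermat.Agent.S11.caseII_int K hp3 hKL' hab hc h1 h

/-- **Fermat's Last Theorem for a regular prime `p`** (`ℤ[ζ_p]` a PID and Kummer's lemma),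
given the first case. -/
theorem flt_of_caseI_of_kummersLemma {p : ℕ} [Fact p.Prime] (hp : p ≠ 2) {K : Type} [Field K]
    [NumberField K] [IsCyclotomicExtension {p} ℚ K] [IsPrincipalIdealRing (𝓞 K)]
    (hKL : KummersLemma p K) (hI : CaseI p) : FermatLastTheoremFor p := by
  rw [fermatLastTheoremFor_iff_int]
  refine fermatLastTheoremWith_of_fermatLastTheoremWith_coprime ?_
  intro a b c ha hb hc hgcd
  by_cases hdvd : (p : ℤ) ∣ a * b * c
  · exact caseII hp hKL (mul_ne_zero (mul_ne_zero ha hb) hc) hgcd hdvd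
  · exact hI a b c hdvd

end Fermat.Agent.Lib.FltSmall
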