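import Mathlib

/-!
# FLT-small W5c: an abstract group lemma

`E` an abelian group generated by `d` elements, `D : E →* M` with `M` killed by `p`,
and `d` elements `w i` whose `D`-values are independent mod `p`.  Then `ker D = E ^ p`.
-/

set_option autoImplicit false

namespace Fermat.Agent.Lib.FltSmall

theorem eq_pow_of_map_eq_one {E M : Type*} [CommGroup E] [AddCommGroup M] {p d : ℕ} [Fact p.Prime]
    (hM : ∀ x : M, p • x = 0)
    (g : Fin d → E) (hg : ∀ u : E, ∃ n : Fin d → ℤ, u = ∏ i, g i ^ n i)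
    (D : E →* Multiplicative M) (w : Fin d → E)
    (hw : ∀ e : Fin d → ℤ, D (∏ i, w i ^ e i) = 1 → ∀ i, (p : ℤ) ∣ e i)
    (u : E) (hu : D u = 1) : ∃ v : E, u = v ^ p := by
  classical
  have : NeZero p := ⟨(Fact.out : p.Prime).ne_zero⟩
  -- `D` kills `p`-th powers
  have hDp : ∀ v : E, D (v ^ p) = 1 := by
    intro v
    rw [map_pow]
    apply Multiplicative.toAdd.injective
    rw [toAdd_pow, hM]
    rfl
  set H : Subgroup E := (powMonoidHom p : E →* E).range with hH
  have hHker : H ≤ D.ker := by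
    rintro _ ⟨v, rfl⟩
    exact hDp v
  have hmemH : ∀ v : E, v ^ p ∈ H := fun v => ⟨v, rfl⟩
  let Dbar : E ⧸ H →* Multiplicative M := QuotientGroup.lift H D hHker
  have hDbar : ∀ x : E, Dbar (QuotientGroup.mk' H x) = D x := fun x => rfl
  -- exponents only matter mod `p` in the quotient
  have hzpow : ∀ (x : E) (n : ℤ),
      QuotientGroup.mk' H (x ^ n) = QuotientGroup.mk' H (x ^ ((n : ZMod p).val)) := by
    intro x n
    have h1 : (((n : ZMod p).val : ℕ) : ℤ) = n % p := ZMod.val_intCast n
    have h2 : x ^ n = x ^ ((n : ZMod p).val) * (x ^ (n / (p : ℤ))) ^ p := by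
      rw [← zpow_natCast x ((n : ZMod p).val), h1, ← zpow_natCast (x ^ (n / (p : ℤ))) p,
        ← zpow_mul, ← zpow_add]
      congr 1
      rw [mul_comm]; exact (Int.emod_add_mul_ediv n p).symm
    rw [h2, map_mul]
    have h3 : QuotientGroup.mk' H ((x ^ (n / (p : ℤ))) ^ p) = 1 :=
      (QuotientGroup.eq_one_iff _).mpr (hmemH _)
    rw [h3, mul_one]
  -- the parametrisations
  let φ : (Fin d → E) → (Fin d → ZMod p) → E ⧸ H :=
    fun z c => QuotientGroup.mk' H (∏ i, z i ^ (c i).val)
  -- surjectivity for the generators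
  have hsurj : Function.Surjective (φ g) := by
    intro x
    obtain ⟨u', rfl⟩ := QuotientGroup.mk'_surjective H x
    obtain ⟨n, rfl⟩ := hg u'
    refine ⟨fun i => (n i : ZMod p), ?_⟩
    show QuotientGroup.mk' H (∏ i, g i ^ ((n i : ZMod p)).val) =
      QuotientGroup.mk' H (∏ i, g i ^ n i)
    rw [map_prod, map_prod]
    exact Finset.prod_congr rfl fun i _ => (hzpow (g i) (n i)).symm
  -- injectivity of `Dbar ∘ φ w`
  have hinj : Function.Injective (fun c => Dbar (φ w c)) := by
    intro c c' hcc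
    have hcc' : D (∏ i, w i ^ (c i).val) = D (∏ i, w i ^ (c' i).val) := hcc
    have hprod : (∏ i, w i ^ (((c i).val : ℤ) - ((c' i).val : ℤ))) =
        (∏ i, w i ^ (c i).val) / (∏ i, w i ^ (c' i).val) := by
      rw [← Finset.prod_div_distrib]
      exact Finset.prod_congr rfl fun i _ => by
        rw [zpow_sub, zpow_natCast, zpow_natCast, div_eq_mul_inv]
    have hone : D (∏ i, w i ^ (((c i).val : ℤ) - ((c' i).val : ℤ))) = 1 := by
      rw [hprod, map_div, hcc', div_self']
    have hdvd := hw _ hone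
    funext i
    have h4 : (((c' i).val : ℤ) : ZMod p) = (((c i).val : ℤ) : ZMod p) :=
      (ZMod.intCast_eq_intCast_iff_dvd_sub _ _ p).mpr (hdvd i)
    have h5 : ∀ a : ZMod p, (((a.val : ℕ) : ℤ) : ZMod p) = a := by
      intro a
      rw [Int.cast_natCast, ZMod.natCast_zmod_val]
    rw [h5, h5] at h4
    exact h4.symm
  have hinjw : Function.Injective (φ w) := Function.Injective.of_comp (f := Dbar) hinj
  -- cardinality
  have : Finite (E ⧸ H) := Finite.of_surjective (φ g) hsurj
  have hcard : Nat.card (E ⧸ H) ≤ Nat.card (Fin d → ZMod p) :=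
    Nat.card_le_card_of_surjective (φ g) hsurj
  have hbij : Function.Bijective (φ w) := hinjw.bijective_of_nat_card_le hcard
  -- `Dbar` is injective
  have hDinj : Function.Injective Dbar := by
    intro x x' hxx
    obtain ⟨c, rfl⟩ := hbij.2 x
    obtain ⟨c', rfl⟩ := hbij.2 x'
    rw [hinj hxx]
  -- conclusion
  have h1 : QuotientGroup.mk' H u = 1 := by
    apply hDinj
    rw [hDbar, hu, map_one]
  obtain ⟨v, hv⟩ := (QuotientGroup.eq_one_iff u).mp h1
  exact ⟨v, hv.symm⟩

end Fermat.Agent.Lib.FltSmall
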