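import Mathlib.Algebra.Polynomial.Taylor
import Mathlib.Tactic
import Fermat.Agent.Lib.FltSmall.Defs

set_option autoImplicit false

namespace Fermat.Agent.Lib.FltSmall

open Polynomial

/-- If `(X - 1)^n` divides `P` then the Taylor coefficients of `P` at `1` of index `< n`
vanish. -/
theorem taylor_coeff_eq_zero_of_X_sub_one_pow_dvd {R : Type*} [CommRing R] {n : ℕ} {P : R[X]}
    (h : (X - 1 : R[X]) ^ n ∣ P) (k : ℕ) (hk : k < n) : (taylor 1 P).coeff k = 0 := by
  obtain ⟨Q, rfl⟩ := h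
  have : taylor 1 ((X - 1 : R[X]) ^ n * Q) = X ^ n * taylor 1 Q := by
    rw [taylor_mul, taylor_pow]
    congr 2
    simp [taylor_X, sub_eq_add_neg]
  rw [this, coeff_X_pow_mul']
  simp [not_le.mpr hk]

/-- If `(X - 1)^n` divides `∑_{k<N} c_k (X-1)^k` then `c_k = 0` for `k < n`. -/
theorem coeff_eq_zero_of_X_sub_one_pow_dvd_sum {R : Type*} [CommRing R] {n N : ℕ} (c : ℕ → R)
    (h : (X - 1 : R[X]) ^ n ∣ ∑ k ∈ Finset.range N, C (c k) * (X - 1 : R[X]) ^ k)
    (k : ℕ) (hk : k < n) (hkN : k < N) : c k = 0 := by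
  have h0 := taylor_coeff_eq_zero_of_X_sub_one_pow_dvd h k hk
  have : taylor 1 (∑ k ∈ Finset.range N, C (c k) * (X - 1 : R[X]) ^ k) =
      ∑ k ∈ Finset.range N, C (c k) * X ^ k := by
    rw [map_sum]
    refine Finset.sum_congr rfl fun k _ => ?_
    rw [taylor_mul, taylor_pow, taylor_C]
    congr 2
    simp [taylor_X, sub_eq_add_neg]
  rw [this, finsetSum_coeff] at h0
  simp only [coeff_C_mul, coeff_X_pow] at h0
  rw [Finset.sum_eq_single k] at h0
  · simpa using h0
  · intro b _ hb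
    simp [hb.symm]
  · intro hk'
    exact absurd (Finset.mem_range.mpr hkN) hk'

theorem kummerCert_five : KummerCert 5 := by
  intro e h a ha
  have hp : Fact (Nat.Prime 5) := ⟨by norm_num⟩
  -- make the polynomial explicit, in powers of `X - 1`
  set cZ : ℕ → ℤ := fun k => ([2 * e 1 + e 2, e 1 + e 2] : List ℤ).getD k 0 with hcZ
  have hP : kummerPoly 5 e =
      ∑ k ∈ Finset.range 2, C ((cZ k : ℤ) : ZMod 5) * (X - 1 : (ZMod 5)[X]) ^ k := by
    simp only [kummerPoly, gpoly, hcZ]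
    norm_num [Finset.sum_range_succ, Finset.Icc_self]
    ring
  rw [hP] at h
  have c0 := coeff_eq_zero_of_X_sub_one_pow_dvd_sum _ h 0 (by norm_num) (by norm_num)
  have c1 := coeff_eq_zero_of_X_sub_one_pow_dvd_sum _ h 1 (by norm_num) (by norm_num)
  simp only [hcZ, List.getD_cons_zero, List.getD_cons_succ] at c0 c1
  rw [ZMod.intCast_zmod_eq_zero_iff_dvd] at c0 c1
  simp only [Finset.mem_Icc] at ha
  have : a = 1 ∨ a = 2 := by omega
  rcases this with rfl | rfl <;> push_cast <;> omega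

theorem kummerCert_seven : KummerCert 7 := by
  intro e h a ha
  have hp : Fact (Nat.Prime 7) := ⟨by norm_num⟩
  set cZ : ℕ → ℤ := fun k => ([6 * e 1 + 3 * e 2 + 6 * e 3, 9 * e 1 + 6 * e 2 + 13 * e 3, 5 * e 1 + 4 * e 2 + 9 * e 3, 1 * e 1 + 1 * e 2 + 2 * e 3] : List ℤ).getD k 0 with hcZ
  have hIcc : Finset.Icc 2 ((7 - 1) / 2) = ({2, 3} : Finset ℕ) := by decide
  have hP : kummerPoly 7 e =
      ∑ k ∈ Finset.range 4, C ((cZ k : ℤ) : ZMod 7) * (X - 1 : (ZMod 7)[X]) ^ k := by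
    simp only [kummerPoly, gpoly, hcZ, hIcc]
    norm_num [Finset.sum_range_succ, Finset.erase_insert_of_ne, Finset.erase_insert]
    simp only [map_ofNat]
    ring
  rw [hP] at h
  have c0 := coeff_eq_zero_of_X_sub_one_pow_dvd_sum _ h 0 (by norm_num) (by norm_num)
  have c1 := coeff_eq_zero_of_X_sub_one_pow_dvd_sum _ h 1 (by norm_num) (by norm_num)
  have c2 := coeff_eq_zero_of_X_sub_one_pow_dvd_sum _ h 2 (by norm_num) (by norm_num)
  have c3 := coeff_eq_zero_of_X_sub_one_pow_dvd_sum _ h 3 (by norm_num) (by norm_num)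
  simp only [hcZ, List.getD_cons_zero, List.getD_cons_succ] at c0 c1 c2 c3
  rw [ZMod.intCast_zmod_eq_zero_iff_dvd] at c0 c1 c2 c3
  simp only [Finset.mem_Icc] at ha
  have : a = 1 ∨ a = 2 ∨ a = 3 := by omega
  rcases this with rfl | rfl | rfl <;> push_cast <;> omega


end Fermat.Agent.Lib.FltSmall
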