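import Mathlib.Algebra.Polynomial.Taylor
import Mathlib.Tactic
import Fermat.Agent.Lib.FltSmall.Defs
import Fermat.Agent.Lib.FltSmall.KummerCertSmall

/-!
# Kummer independence certificate for `p = 13`

`KummerCert 13`: the Taylor coefficients at `1` (indices `< 11`) of `kummerPoly 13 e` are explicit
integer linear forms in `e 1, …, e 6`; their vanishing mod `13` forces `13 ∣ e a`.
-/

set_option autoImplicit false

namespace Fermat.Agent.Lib.FltSmall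

open Polynomial

namespace Cert13

/-- The generic polynomial identity (Taylor expansion at `1`), valid in any commutative ring. -/
theorem key {R : Type*} [CommRing R] (x E1 E2 E3 E4 E5 E6 : R) :
    E1 * ((1 + x) * (1 + x + x^2) * (1 + x + x^2 + x^3) * (1 + x + x^2 + x^3 + x^4) * (1 + x + x^2 + x^3 + x^4 + x^5)) +
      E2 * (x * (1) * ((1 + x + x^2) * (1 + x + x^2 + x^3) * (1 + x + x^2 + x^3 + x^4) * (1 + x + x^2 + x^3 + x^4 + x^5))) +
      E3 * (x * (1 + 2 * x) * ((1 + x) * (1 + x + x^2 + x^3) * (1 + x + x^2 + x^3 + x^4) * (1 + x + x^2 + x^3 + x^4 + x^5))) +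
      E4 * (x * (1 + 2 * x + 3 * x^2) * ((1 + x) * (1 + x + x^2) * (1 + x + x^2 + x^3 + x^4) * (1 + x + x^2 + x^3 + x^4 + x^5))) +
      E5 * (x * (1 + 2 * x + 3 * x^2 + 4 * x^3) * ((1 + x) * (1 + x + x^2) * (1 + x + x^2 + x^3) * (1 + x + x^2 + x^3 + x^4 + x^5))) +
      E6 * (x * (1 + 2 * x + 3 * x^2 + 4 * x^3 + 5 * x^4) * ((1 + x) * (1 + x + x^2) * (1 + x + x^2 + x^3) * (1 + x + x^2 + x^3 + x^4))) =
      (720 * E1 + 360 * E2 + 720 * E3 + 1080 * E4 + 1440 * E5 + 1800 * E6) * (x - 1)^0 +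
      (5400 * E1 + 2880 * E2 + 5880 * E3 + 9000 * E4 + 12240 * E5 + 15600 * E6) * (x - 1)^1 +
      (20100 * E1 + 11310 * E2 + 23460 * E3 + 36450 * E4 + 50280 * E5 + 64950 * E6) * (x - 1)^2 +
      (48750 * E1 + 28770 * E2 + 60430 * E3 + 94920 * E4 + 132156 * E5 + 172030 * E6) * (x - 1)^3 +
      (85514 * E1 + 52747 * E2 + 111914 * E3 + 177141 * E4 + 247924 * E5 + 323615 * E6) * (x - 1)^4 +
      (114257 * E1 + 73512 * E2 + 157223 * E3 + 250078 * E4 + 350660 * E5 + 457250 * E6) * (x - 1)^5 +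
      (119573 * E1 + 80159 * E2 + 172483 * E3 + 274997 * E4 + 385236 * E5 + 500545 * E6) * (x - 1)^6 +
      (99426 * E1 + 69420 * E2 + 149995 * E3 + 239128 * E4 + 333895 * E5 + 431656 * E6) * (x - 1)^7 +
      (66014 * E1 + 48010 * E2 + 103950 * E3 + 165322 * E4 + 229676 * E5 + 295254 * E6) * (x - 1)^8 +
      (34900 * E1 + 26452 * E2 + 57259 * E3 + 90640 * E4 + 125139 * E5 + 159970 * E6) * (x - 1)^9 +
      (14536 * E1 + 11492 * E2 + 24803 * E3 + 38998 * E4 + 53475 * E5 + 68006 * E6) * (x - 1)^10 +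
      (4674 * E1 + 3859 * E2 + 8278 * E3 + 12905 * E4 + 17575 * E5 + 22249 * E6) * (x - 1)^11 +
      (1121 * E1 + 968 * E2 + 2056 * E3 + 3174 * E4 + 4295 * E5 + 5416 * E6) * (x - 1)^12 +
      (189 * E1 + 171 * E2 + 358 * E3 + 547 * E4 + 736 * E5 + 925 * E6) * (x - 1)^13 +
      (20 * E1 + 19 * E2 + 39 * E3 + 59 * E4 + 79 * E5 + 99 * E6) * (x - 1)^14 +
      (1 * E1 + 1 * E2 + 2 * E3 + 3 * E4 + 4 * E5 + 5 * E6) * (x - 1)^15 := by
  ring

theorem gp2 : gpoly 13 2 = (1 + X : (ZMod 13)[X]) := by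
  simp [gpoly, Finset.sum_range_succ]

theorem gp3 : gpoly 13 3 = (1 + X + X^2 : (ZMod 13)[X]) := by
  simp [gpoly, Finset.sum_range_succ]

theorem gp4 : gpoly 13 4 = (1 + X + X^2 + X^3 : (ZMod 13)[X]) := by
  simp [gpoly, Finset.sum_range_succ]

theorem gp5 : gpoly 13 5 = (1 + X + X^2 + X^3 + X^4 : (ZMod 13)[X]) := by
  simp [gpoly, Finset.sum_range_succ]

theorem gp6 : gpoly 13 6 = (1 + X + X^2 + X^3 + X^4 + X^5 : (ZMod 13)[X]) := by
  simp [gpoly, Finset.sum_range_succ]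

theorem dgp2 : derivative (gpoly 13 2) = (1 : (ZMod 13)[X]) := by
  rw [gp2]
  simp only [derivative_add, derivative_one, derivative_X, zero_add]

theorem dgp3 : derivative (gpoly 13 3) = (1 + 2 * X : (ZMod 13)[X]) := by
  rw [gp3]
  simp only [derivative_add, derivative_one, derivative_X, derivative_X_pow, zero_add]
  simp only [Nat.cast_ofNat, map_ofNat]
  norm_num

theorem dgp4 : derivative (gpoly 13 4) = (1 + 2 * X + 3 * X^2 : (ZMod 13)[X]) := by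
  rw [gp4]
  simp only [derivative_add, derivative_one, derivative_X, derivative_X_pow, zero_add]
  simp only [Nat.cast_ofNat, map_ofNat]
  norm_num

theorem dgp5 : derivative (gpoly 13 5) = (1 + 2 * X + 3 * X^2 + 4 * X^3 : (ZMod 13)[X]) := by
  rw [gp5]
  simp only [derivative_add, derivative_one, derivative_X, derivative_X_pow, zero_add]
  simp only [Nat.cast_ofNat, map_ofNat]
  norm_num

theorem dgp6 : derivative (gpoly 13 6) = (1 + 2 * X + 3 * X^2 + 4 * X^3 + 5 * X^4 : (ZMod 13)[X]) := by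
  rw [gp6]
  simp only [derivative_add, derivative_one, derivative_X, derivative_X_pow, zero_add]
  simp only [Nat.cast_ofNat, map_ofNat]
  norm_num

theorem hIcc : Finset.Icc 2 ((13 - 1) / 2) = ({2, 3, 4, 5, 6} : Finset ℕ) := by decide

theorem er2 : ({2, 3, 4, 5, 6} : Finset ℕ).erase 2 = {3, 4, 5, 6} := by decide
theorem er3 : ({2, 3, 4, 5, 6} : Finset ℕ).erase 3 = {2, 4, 5, 6} := by decide
theorem er4 : ({2, 3, 4, 5, 6} : Finset ℕ).erase 4 = {2, 3, 5, 6} := by decide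
theorem er5 : ({2, 3, 4, 5, 6} : Finset ℕ).erase 5 = {2, 3, 4, 6} := by decide
theorem er6 : ({2, 3, 4, 5, 6} : Finset ℕ).erase 6 = {2, 3, 4, 5} := by decide

theorem kummerPoly_eq (e : ℕ → ℤ) :
    kummerPoly 13 e =
      C (e 1 : ZMod 13) * (gpoly 13 2 * gpoly 13 3 * gpoly 13 4 * gpoly 13 5 * gpoly 13 6) +
      (C (e 2 : ZMod 13) * (X * derivative (gpoly 13 2) * (gpoly 13 3 * gpoly 13 4 * gpoly 13 5 * gpoly 13 6)) +
       C (e 3 : ZMod 13) * (X * derivative (gpoly 13 3) * (gpoly 13 2 * gpoly 13 4 * gpoly 13 5 * gpoly 13 6)) +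
       C (e 4 : ZMod 13) * (X * derivative (gpoly 13 4) * (gpoly 13 2 * gpoly 13 3 * gpoly 13 5 * gpoly 13 6)) +
       C (e 5 : ZMod 13) * (X * derivative (gpoly 13 5) * (gpoly 13 2 * gpoly 13 3 * gpoly 13 4 * gpoly 13 6)) +
       C (e 6 : ZMod 13) * (X * derivative (gpoly 13 6) * (gpoly 13 2 * gpoly 13 3 * gpoly 13 4 * gpoly 13 5))) := by
  simp only [kummerPoly, hIcc]
  simp only [Finset.sum_insert, Finset.prod_insert, Finset.sum_singleton, Finset.prod_singleton,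
    Finset.mem_insert, Finset.mem_singleton, er2, er3, er4, er5, er6, Nat.reduceEqDiff, or_self,
    not_false_eq_true]
  ring

end Cert13

open Cert13 in
theorem kummerCert_thirteen : KummerCert 13 := by
  intro e h a ha
  simp only [Finset.mem_Icc] at ha
  have : a = 1 ∨ a = 2 ∨ a = 3 ∨ a = 4 ∨ a = 5 ∨ a = 6 := by omega
  clear ha
  set cZ : ℕ → ℤ := fun k => ([720 * e 1 + 360 * e 2 + 720 * e 3 + 1080 * e 4 + 1440 * e 5 + 1800 * e 6, 5400 * e 1 + 2880 * e 2 + 5880 * e 3 + 9000 * e 4 + 12240 * e 5 + 15600 * e 6, 20100 * e 1 + 11310 * e 2 + 23460 * e 3 + 36450 * e 4 + 50280 * e 5 + 64950 * e 6, 48750 * e 1 + 28770 * e 2 + 60430 * e 3 + 94920 * e 4 + 132156 * e 5 + 172030 * e 6, 85514 * e 1 + 52747 * e 2 + 111914 * e 3 + 177141 * e 4 + 247924 * e 5 + 323615 * e 6, 114257 * e 1 + 73512 * e 2 + 157223 * e 3 + 250078 * e 4 + 350660 * e 5 + 457250 * e 6, 119573 * e 1 + 80159 * e 2 + 172483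 * e 3 + 274997 * e 4 + 385236 * e 5 + 500545 * e 6, 99426 * e 1 + 69420 * e 2 + 149995 * e 3 + 239128 * e 4 + 333895 * e 5 + 431656 * e 6, 66014 * e 1 + 48010 * e 2 + 103950 * e 3 + 165322 * e 4 + 229676 * e 5 + 295254 * e 6, 34900 * e 1 + 26452 * e 2 + 57259 * e 3 + 90640 * e 4 + 125139 * e 5 + 159970 * e 6, 14536 * e 1 + 11492 * e 2 + 24803 * e 3 + 38998 * e 4 + 53475 * e 5 + 68006 * e 6, 4674 * e 1 + 3859 * e 2 + 8278 * e 3 + 12905 * e 4 + 17575 * e 5 + 22249 * e 6, 1121 * e 1 + 968 * e 2 + 2056 * e 3 + 3174 * e 4 + 4295 * e 5 + 5416 * e 6, 189 * e 1 + 171 * e 2 + 358 * e 3 + 547 * e 4 + 736 * e 5 + 925 * e 6, 20 * e 1 + 19 * e 2 + 39 * e 3 + 59 * e 4 + 79 * e 5 + 99 * e 6, 1 * e 1 + 1 * e 2 + 2 * e 3 + 3 * e 4 + 4 * e 5 + 5 * e 6] : List ℤ).getD k 0 with hcZ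
  have hP : kummerPoly 13 e =
      ∑ k ∈ Finset.range 16, C ((cZ k : ℤ) : ZMod 13) * (X - 1 : (ZMod 13)[X]) ^ k := by
    rw [kummerPoly_eq, dgp2, dgp3, dgp4, dgp5, dgp6, gp2, gp3, gp4, gp5, gp6]
    simp only [Finset.sum_range_succ, Finset.sum_range_zero, hcZ, List.getD_cons_zero,
      List.getD_cons_succ, Int.cast_add, Int.cast_mul, Int.cast_ofNat, Int.cast_one, map_add, map_mul,
      map_ofNat, map_one, zero_add]
    linear_combination key (X : (ZMod 13)[X]) (C (e 1 : ZMod 13)) (C (e 2 : ZMod 13))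
      (C (e 3 : ZMod 13)) (C (e 4 : ZMod 13)) (C (e 5 : ZMod 13)) (C (e 6 : ZMod 13))
  rw [hP] at h
  have c0 := coeff_eq_zero_of_X_sub_one_pow_dvd_sum _ h 0 (by norm_num) (by norm_num)
  have c1 := coeff_eq_zero_of_X_sub_one_pow_dvd_sum _ h 1 (by norm_num) (by norm_num)
  have c2 := coeff_eq_zero_of_X_sub_one_pow_dvd_sum _ h 2 (by norm_num) (by norm_num)
  have c3 := coeff_eq_zero_of_X_sub_one_pow_dvd_sum _ h 3 (by norm_num) (by norm_num)
  have c4 := coeff_eq_zero_of_X_sub_one_pow_dvd_sum _ h 4 (by norm_num) (by norm_num)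
  have c5 := coeff_eq_zero_of_X_sub_one_pow_dvd_sum _ h 5 (by norm_num) (by norm_num)
  have c6 := coeff_eq_zero_of_X_sub_one_pow_dvd_sum _ h 6 (by norm_num) (by norm_num)
  have c7 := coeff_eq_zero_of_X_sub_one_pow_dvd_sum _ h 7 (by norm_num) (by norm_num)
  have c8 := coeff_eq_zero_of_X_sub_one_pow_dvd_sum _ h 8 (by norm_num) (by norm_num)
  have c9 := coeff_eq_zero_of_X_sub_one_pow_dvd_sum _ h 9 (by norm_num) (by norm_num)
  have c10 := coeff_eq_zero_of_X_sub_one_pow_dvd_sum _ h 10 (by norm_num) (by norm_num)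
  simp only [hcZ, List.getD_cons_zero, List.getD_cons_succ] at c0 c1 c2 c3 c4 c5 c6 c7 c8 c9 c10
  rw [ZMod.intCast_zmod_eq_zero_iff_dvd] at c0 c1 c2 c3 c4 c5 c6 c7 c8 c9 c10
  obtain ⟨t0, ht0⟩ := c0
  obtain ⟨t1, ht1⟩ := c1
  obtain ⟨t2, ht2⟩ := c2
  obtain ⟨t3, ht3⟩ := c3
  obtain ⟨t4, ht4⟩ := c4
  obtain ⟨t5, ht5⟩ := c5
  obtain ⟨t6, ht6⟩ := c6
  obtain ⟨t7, ht7⟩ := c7
  obtain ⟨t8, ht8⟩ := c8
  obtain ⟨t9, ht9⟩ := c9
  obtain ⟨t10, ht10⟩ := c10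
  push_cast
  rcases this with rfl | rfl | rfl | rfl | rfl | rfl
  · exact ⟨10 * t0 + 6 * t1 + 10 * t3 + 11 * t5 + 8 * t7 + 6 * t9 - (214518 * e 1 + 140868 * e 2 + 301519 * e 3 + 478594 * e 4 + 668358 * e 5 + 867286 * e 6),
      by linear_combination 10 * ht0 + 6 * ht1 + 10 * ht3 + 11 * ht5 + 8 * ht7 + 6 * ht9⟩
  · exact ⟨12 * t0 + 1 * t1 + 5 * t3 + 9 * t5 + 3 * t7 + 9 * t9 - (146037 * e 1 + 96845 * e 2 + 207461 * e 3 + 329262 * e 4 + 459552 * e 5 + 595946 * e 6),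
      by linear_combination 12 * ht0 + 1 * ht1 + 5 * ht3 + 9 * ht5 + 3 * ht7 + 9 * ht9⟩
  · exact ⟨12 * t0 + 10 * t1 + 5 * t3 + 5 * t5 + 7 * t7 + 4 * t9 - (131789 * e 1 + 87406 * e 2 + 187285 * e 3 + 297262 * e 4 + 414737 * e 5 + 537344 * e 6),
      by linear_combination 12 * ht0 + 10 * ht1 + 5 * ht3 + 5 * ht5 + 7 * ht7 + 4 * ht9⟩
  · exact ⟨10 * t0 + 5 * t1 + 6 * t3 + 12 * t5 + 7 * t7 + 10 * t9 - (210982 * e 1 + 140248 * e 2 + 300647 * e 3 + 477427 * e 4 + 666547 * e 5 + 864344 * e 6),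
      by linear_combination 10 * ht0 + 5 * ht1 + 6 * ht3 + 12 * ht5 + 7 * ht7 + 10 * ht9⟩
  · exact ⟨11 * t0 + 3 * t1 + 2 * t3 + 5 * t5 + 1 * t9 - (55985 * e 1 + 35704 * e 2 + 76138 * e 3 + 120750 * e 4 + 168870 * e 5 + 219760 * e 6),
      by linear_combination 11 * ht0 + 3 * ht1 + 2 * ht3 + 5 * ht5 + 1 * ht9⟩
  · exact ⟨11 * t0 + 1 * t1 + 6 * t3 + 4 * t5 + 10 * t7 + 3 * t9 - (143216 * e 1 + 95928 * e 2 + 205923 * e 3 + 327224 * e 4 + 456771 * e 5 + 591773 * e 6),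
      by linear_combination 11 * ht0 + 1 * ht1 + 6 * ht3 + 4 * ht5 + 10 * ht7 + 3 * ht9⟩

end Fermat.Agent.Lib.FltSmall
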