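import Mathlib
import Fermat.Agent.Lib.FltSmall.Defs

/-!
# Kummer's logarithmic derivative (W5a of the FLT-small route)

Owner: helper82.  Main result: `Fermat.Agent.Lib.FltSmall.exists_logDer`.
-/

set_option autoImplicit false
set_option linter.unusedSectionVars false
set_option linter.unusedVariables false

namespace Fermat.Agent.Lib.FltSmall

open NumberField Polynomial

/-- `(ZMod p)[X] / ((X - 1)^(p-2))`, the target of Kummer's logarithmic derivative. -/
abbrev LogTarget (p : ℕ) : Type := (ZMod p)[X] ⧸ Ideal.span {((X : (ZMod p)[X]) - 1) ^ (p - 2)}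

/-- `(ZMod p)[X] / ((X - 1)^(p-1)) = 𝓞 K / p`. -/
abbrev LogSource (p : ℕ) : Type := (ZMod p)[X] ⧸ Ideal.span {((X : (ZMod p)[X]) - 1) ^ (p - 1)}

section poly

variable (p : ℕ) [Fact p.Prime]

theorem cyclotomic_zmod_eq : cyclotomic p (ZMod p) = (X - 1) ^ (p - 1) := by
  have hp : p.Prime := Fact.out
  have h := cyclotomic_mul_prime_eq_pow_of_not_dvd (ZMod p) (p := p) (n := 1)
    (fun h => hp.one_lt.ne' (Nat.dvd_one.mp h))
  rwa [one_mul, cyclotomic_one] at h

/-- evaluation at the class of `X` in a quotient of `(ZMod p)[X]` -/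
theorem aeval_mk_X (I : Ideal (ZMod p)[X]) (f : ℤ[X]) :
    aeval (Ideal.Quotient.mk I X) f = Ideal.Quotient.mk I (f.map (Int.castRingHom (ZMod p))) := by
  induction f using Polynomial.induction_on' with
  | add f g hf hg => rw [map_add, hf, hg, Polynomial.map_add, map_add]
  | monomial n a =>
    rw [aeval_monomial, Polynomial.map_monomial, ← C_mul_X_pow_eq_monomial, map_mul, map_pow]
    congr 1

theorem aeval_mk_X_cyclotomic :
    aeval (Ideal.Quotient.mk (Ideal.span {((X : (ZMod p)[X]) - 1) ^ (p - 1)}) X)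
      (cyclotomic p ℤ) = 0 := by
  rw [aeval_mk_X, map_cyclotomic_int, cyclotomic_zmod_eq, Ideal.Quotient.eq_zero_iff_mem]
  exact Ideal.subset_span rfl

theorem span_le_span : Ideal.span {((X : (ZMod p)[X]) - 1) ^ (p - 1)} ≤
    Ideal.span {((X : (ZMod p)[X]) - 1) ^ (p - 2)} := by
  rw [Ideal.span_singleton_le_span_singleton]
  exact pow_dvd_pow _ (by omega)

/-- the projection `B1 → B2` -/
noncomputable def piHom : LogSource p →+* LogTarget p :=
  Ideal.Quotient.factor (span_le_span p)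

@[simp] theorem piHom_mk (f : (ZMod p)[X]) :
    piHom p (Ideal.Quotient.mk _ f) = Ideal.Quotient.mk _ f := rfl

theorem derivative_mem {g : (ZMod p)[X]}
    (hg : g ∈ Ideal.span {((X : (ZMod p)[X]) - 1) ^ (p - 1)}) :
    derivative g ∈ Ideal.span {((X : (ZMod p)[X]) - 1) ^ (p - 2)} := by
  rw [Ideal.mem_span_singleton] at hg ⊢
  obtain ⟨h, rfl⟩ := hg
  rw [derivative_mul, derivative_pow]
  refine dvd_add ?_ ?_
  · have : p - 1 - 1 = p - 2 := by omega
    rw [this]
    exact ⟨C ((p - 1 : ℕ) : ZMod p) * derivative (X - 1) * h, by ring⟩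
  · exact dvd_mul_of_dvd_left (pow_dvd_pow _ (by omega)) _

/-- the derivative, as an additive map `B1 → B2` -/
noncomputable def derHom : LogSource p →+ LogTarget p :=
  QuotientAddGroup.lift (Ideal.span {((X : (ZMod p)[X]) - 1) ^ (p - 1)}).toAddSubgroup
    ((Ideal.Quotient.mk (Ideal.span {((X : (ZMod p)[X]) - 1) ^ (p - 2)})).toAddMonoidHom.comp
      (derivative : (ZMod p)[X] →ₗ[ZMod p] (ZMod p)[X]).toAddMonoidHom)
    (fun g hg => by
      rw [AddMonoidHom.mem_ker]
      exact Ideal.Quotient.eq_zero_iff_mem.mpr (derivative_mem p hg))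

@[simp] theorem derHom_mk (f : (ZMod p)[X]) :
    derHom p (Ideal.Quotient.mk _ f) = Ideal.Quotient.mk _ (derivative f) := rfl

theorem derHom_mul (x y : LogSource p) :
    derHom p (x * y) = derHom p x * piHom p y + piHom p x * derHom p y := by
  obtain ⟨f, rfl⟩ := Ideal.Quotient.mk_surjective x
  obtain ⟨g, rfl⟩ := Ideal.Quotient.mk_surjective y
  rw [← map_mul, derHom_mk, derHom_mk, derHom_mk, piHom_mk, piHom_mk, derivative_mul, map_add,
    map_mul, map_mul]

theorem derHom_one : derHom p 1 = 0 := by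
  rw [← map_one (Ideal.Quotient.mk _), derHom_mk, derivative_one, map_zero]

theorem derHom_intCast (a : ℤ) : derHom p (a : LogSource p) = 0 := by
  have : (a : LogSource p) = Ideal.Quotient.mk _ (C (a : ZMod p)) := by simp
  rw [this, derHom_mk, derivative_C, map_zero]

theorem piHom_unit_mul_inv (u : (LogSource p)ˣ) :
    piHom p (u : LogSource p) * piHom p ((u⁻¹ : (LogSource p)ˣ) : LogSource p) = 1 := by
  rw [← map_mul, Units.mul_inv, map_one]

/-- logarithmic derivative `u ↦ X u'/u` on units of `B1`. -/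
noncomputable def dlogHom : (LogSource p)ˣ →* Multiplicative (LogTarget p) where
  toFun u := Multiplicative.ofAdd
    (piHom p (Ideal.Quotient.mk _ X) * derHom p (u : LogSource p) *
      piHom p ((u⁻¹ : (LogSource p)ˣ) : LogSource p))
  map_one' := by
    rw [Units.val_one, derHom_one, mul_zero, zero_mul, ofAdd_zero]
  map_mul' u v := by
    rw [← ofAdd_add]
    congr 1
    have hu := piHom_unit_mul_inv p u
    have hv := piHom_unit_mul_inv p v
    have huv : (u * v)⁻¹ = u⁻¹ * v⁻¹ := mul_inv u v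
    rw [Units.val_mul, derHom_mul, huv, Units.val_mul, map_mul]
    linear_combination
      (piHom p (Ideal.Quotient.mk _ X) * derHom p (u : LogSource p) *
        piHom p ((u⁻¹ : (LogSource p)ˣ) : LogSource p)) * hv +
      (piHom p (Ideal.Quotient.mk _ X) * derHom p (v : LogSource p) *
        piHom p ((v⁻¹ : (LogSource p)ˣ) : LogSource p)) * hu

theorem toAdd_dlogHom (u : (LogSource p)ˣ) :
    Multiplicative.toAdd (dlogHom p u) =
      piHom p (Ideal.Quotient.mk _ X) * derHom p (u : LogSource p) *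
        piHom p ((u⁻¹ : (LogSource p)ˣ) : LogSource p) := rfl

theorem natCast_logSource_eq_zero : ((p : ℕ) : LogSource p) = 0 := by
  rw [← map_natCast (Ideal.Quotient.mk (Ideal.span {((X : (ZMod p)[X]) - 1) ^ (p - 1)})) p,
    ← C_eq_natCast, ZMod.natCast_self, C_0, map_zero]

end poly

section psi

variable {p : ℕ} [Fact p.Prime] {K : Type} [Field K] [NumberField K]
  [IsCyclotomicExtension {p} ℚ K] {ζ : K} (hζ : IsPrimitiveRoot ζ p)

theorem minpoly_toInteger : minpoly ℤ hζ.toInteger = cyclotomic p ℤ := by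
  have hp : p.Prime := Fact.out
  rw [← NumberField.RingOfIntegers.minpoly_coe, cyclotomic_eq_minpoly hζ hp.pos]
  rfl

theorem lift_eq_of_gen_eq {R S T : Type*} [CommRing R] [Ring S] [Ring T] [Algebra R S]
    [Algebra R T] (pb : PowerBasis R S) (y : T) (hy : aeval y (minpoly R pb.gen) = 0)
    {x : S} (hx : pb.gen = x) : pb.lift y hy x = y := by
  subst hx
  exact pb.lift_gen y hy

/-- The ring hom `𝓞 K → (ZMod p)[X]/((X-1)^(p-1))` sending `ζ` to `X`. -/
noncomputable def psi : 𝓞 K →ₐ[ℤ] LogSource p :=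
  hζ.integralPowerBasis.lift (Ideal.Quotient.mk _ X) (by
    rw [hζ.integralPowerBasis_gen, minpoly_toInteger hζ]
    exact aeval_mk_X_cyclotomic p)

theorem psi_toInteger : psi hζ hζ.toInteger = Ideal.Quotient.mk _ X :=
  lift_eq_of_gen_eq _ _ _ hζ.integralPowerBasis_gen

theorem psi_aeval (f : ℤ[X]) :
    psi hζ (aeval hζ.toInteger f) = Ideal.Quotient.mk _ (f.map (Int.castRingHom (ZMod p))) := by
  rw [← aeval_algHom_apply, psi_toInteger, aeval_mk_X]

/-- **Kummer's logarithmic derivative** on the units of `𝓞 K`, `K = ℚ(ζ_p)`. -/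
noncomputable def logDer : (𝓞 K)ˣ →* Multiplicative (LogTarget p) :=
  (dlogHom p).comp (Units.map ((psi hζ : 𝓞 K →ₐ[ℤ] LogSource p) : 𝓞 K →* LogSource p))

theorem logDer_apply (u : (𝓞 K)ˣ) :
    Multiplicative.toAdd (logDer hζ u) =
      piHom p (Ideal.Quotient.mk _ X) * derHom p (psi hζ (u : 𝓞 K)) *
        piHom p (psi hζ ((u⁻¹ : (𝓞 K)ˣ) : 𝓞 K)) := rfl

theorem piHom_psi_mul_inv (u : (𝓞 K)ˣ) :
    piHom p (psi hζ (u : 𝓞 K)) * piHom p (psi hζ ((u⁻¹ : (𝓞 K)ˣ) : 𝓞 K)) = 1 := by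
  rw [← map_mul, ← map_mul, Units.mul_inv, map_one, map_one]

theorem logDer_eq_one_of_dvd (u : (𝓞 K)ˣ) (a : ℤ)
    (h : (p : 𝓞 K) ∣ (u : 𝓞 K) - (a : 𝓞 K)) : logDer hζ u = 1 := by
  obtain ⟨k, hk⟩ := h
  have hu : (u : 𝓞 K) = (a : 𝓞 K) + (p : 𝓞 K) * k := by rw [← hk]; ring
  have hψ : psi hζ (u : 𝓞 K) = (a : LogSource p) := by
    rw [hu, map_add, map_mul, map_intCast, map_natCast, natCast_logSource_eq_zero, zero_mul,
      add_zero]
  apply Multiplicative.toAdd.injective
  rw [logDer_apply, hψ, derHom_intCast, mul_zero, zero_mul]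
  rfl

theorem logDer_mul_of_aeval (u : (𝓞 K)ˣ) (f : ℤ[X]) (h : (u : 𝓞 K) = aeval hζ.toInteger f) :
    Multiplicative.toAdd (logDer hζ u) *
        Ideal.Quotient.mk _ (f.map (Int.castRingHom (ZMod p))) =
      Ideal.Quotient.mk _ (X * derivative (f.map (Int.castRingHom (ZMod p)))) := by
  have hψ : psi hζ (u : 𝓞 K) = Ideal.Quotient.mk _ (f.map (Int.castRingHom (ZMod p))) := by
    rw [h, psi_aeval]
  have h1 := piHom_psi_mul_inv hζ u
  rw [logDer_apply]
  rw [hψ, piHom_mk] at h1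
  rw [hψ, derHom_mk, piHom_mk, map_mul]
  linear_combination
    (Ideal.Quotient.mk (Ideal.span {((X : (ZMod p)[X]) - 1) ^ (p - 2)}) X *
      Ideal.Quotient.mk _ (derivative (f.map (Int.castRingHom (ZMod p))))) * h1

theorem logDer_toInteger (u : (𝓞 K)ˣ) (h : (u : 𝓞 K) = hζ.toInteger) :
    logDer hζ u = Multiplicative.ofAdd 1 := by
  have hψ : psi hζ (u : 𝓞 K) = Ideal.Quotient.mk _ X := by rw [h, psi_toInteger]
  have h1 := piHom_psi_mul_inv hζ u
  apply Multiplicative.toAdd.injective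
  rw [logDer_apply, hψ, derHom_mk, derivative_X, map_one, mul_one]
  rw [hψ] at h1
  exact h1

end psi

/-- **W5a.** Existence of Kummer's logarithmic derivative with its three key properties. -/
theorem exists_logDer {p : ℕ} [Fact p.Prime] (hp : p ≠ 2) {K : Type} [Field K] [NumberField K]
    [IsCyclotomicExtension {p} ℚ K] {ζ : K} (hζ : IsPrimitiveRoot ζ p) :
    ∃ D : (𝓞 K)ˣ →* Multiplicative (LogTarget p),
      (∀ (u : (𝓞 K)ˣ) (a : ℤ), (p : 𝓞 K) ∣ (u : 𝓞 K) - (a : 𝓞 K) → D u = 1) ∧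
      (∀ u : (𝓞 K)ˣ, (u : 𝓞 K) = hζ.toInteger → D u = Multiplicative.ofAdd 1) ∧
      (∀ (u : (𝓞 K)ˣ) (f : ℤ[X]), (u : 𝓞 K) = aeval hζ.toInteger f →
        Multiplicative.toAdd (D u) * Ideal.Quotient.mk _ (f.map (Int.castRingHom (ZMod p))) =
          Ideal.Quotient.mk _ (X * derivative (f.map (Int.castRingHom (ZMod p))))) :=
  ⟨logDer hζ, logDer_eq_one_of_dvd hζ, logDer_toInteger hζ, logDer_mul_of_aeval hζ⟩

end Fermat.Agent.Lib.FltSmall
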