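import Mathlib.NumberTheory.NumberField.Units.DirichletTheorem
import Mathlib.NumberTheory.NumberField.Cyclotomic.Embeddings

/-!
# FLT-small, piece W5b: the units of `ℤ[ζ_p]` are generated by `(p - 1) / 2` elements

Consequence of Mathlib's Dirichlet unit theorem: for `p` an odd prime and `K` the `p`-th
cyclotomic field, `rank K + 1 = (p - 1) / 2`; a generator of the (cyclic) torsion subgroup together
with a fundamental system of units generates `(𝓞 K)ˣ`.
-/

set_option autoImplicit false

namespace Fermat.Agent.Lib.FltSmall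

open NumberField NumberField.Units NumberField.InfinitePlace

/-- For `p` an odd prime, the unit rank of the `p`-th cyclotomic field plus one is `(p - 1) / 2`. -/
theorem rank_cyclotomic_add_one {p : ℕ} [Fact p.Prime] (hp : p ≠ 2) {K : Type} [Field K]
    [NumberField K] [IsCyclotomicExtension {p} ℚ K] :
    NumberField.Units.rank K + 1 = (p - 1) / 2 := by
  have hpp : p.Prime := Fact.out
  have h3 : 2 < p := lt_of_le_of_ne hpp.two_le (Ne.symm hp)
  have hcard : Fintype.card (InfinitePlace K) = (p - 1) / 2 := by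
    rw [card_eq_nrRealPlaces_add_nrComplexPlaces,
      IsCyclotomicExtension.Rat.nrRealPlaces_eq_zero (n := p) K h3, zero_add,
      IsCyclotomicExtension.Rat.nrComplexPlaces_eq_totient_div_two (n := p) K,
      Nat.totient_prime hpp]
  have hpos : 0 < (p - 1) / 2 := by omega
  unfold NumberField.Units.rank
  rw [hcard]
  omega

/-- General form: in any number field, the units are generated by `rank K + 1` elements. -/
theorem exists_generators_units_rank (K : Type*) [Field K] [NumberField K] :
    ∃ g : Fin (NumberField.Units.rank K + 1) → (𝓞 K)ˣ, ∀ u : (𝓞 K)ˣ,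
      ∃ n : Fin (NumberField.Units.rank K + 1) → ℤ, u = ∏ i, g i ^ n i := by
  obtain ⟨τ, hτ⟩ := IsCyclic.exists_generator (α := torsion K)
  refine ⟨Fin.cons (τ : (𝓞 K)ˣ) (fundSystem K), fun u => ?_⟩
  obtain ⟨⟨ζ, e⟩, hu, -⟩ := exist_unique_eq_mul_prod K u
  obtain ⟨k, hk⟩ := Subgroup.mem_zpowers_iff.mp (hτ ζ)
  refine ⟨Fin.cons k e, ?_⟩
  rw [Fin.prod_univ_succ]
  simp only [Fin.cons_zero, Fin.cons_succ]
  rw [hu]
  congr 1
  simp only
  rw [← hk]
  simp

theorem exists_generators_units {p : ℕ} [Fact p.Prime] (hp : p ≠ 2) {K : Type} [Field K]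
    [NumberField K] [IsCyclotomicExtension {p} ℚ K] :
    ∃ g : Fin ((p - 1) / 2) → (𝓞 K)ˣ, ∀ u : (𝓞 K)ˣ,
      ∃ n : Fin ((p - 1) / 2) → ℤ, u = ∏ i, g i ^ n i := by
  rw [← rank_cyclotomic_add_one hp (K := K)]
  exact exists_generators_units_rank K

end Fermat.Agent.Lib.FltSmall
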