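import Mathlib
import Fermat.Agent.Lib.FltSmall.Defs
import Fermat.Agent.Lib.FltSmall.LogDer
import Fermat.Agent.Lib.FltSmall.UnitsGen
import Fermat.Agent.Lib.FltSmall.GroupLemma

/-!
# FLT-small W5d: Kummer's lemma from the independence certificate
-/

set_option autoImplicit false

namespace Fermat.Agent.Lib.FltSmall

open NumberField Polynomial

/-- The integer polynomial `1 + X + ⋯ + X^(a-1)`. -/
noncomputable def gpolyZ (a : ℕ) : ℤ[X] := ∑ j ∈ Finset.range a, X ^ j

theorem gpolyZ_map (p a : ℕ) : (gpolyZ a).map (Int.castRingHom (ZMod p)) = gpoly p a := by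
  simp [gpolyZ, gpoly, Polynomial.map_sum]

theorem aeval_gpolyZ {R : Type*} [CommRing R] (x : R) (a : ℕ) :
    aeval x (gpolyZ a) = ∑ j ∈ Finset.range a, x ^ j := by
  simp [gpolyZ, map_sum]

theorem kummersLemma_of_cert {p : ℕ} [hpf : Fact p.Prime] (hp : p ≠ 2) {K : Type} [Field K]
    [NumberField K] [IsCyclotomicExtension {p} ℚ K] (hcert : KummerCert p) :
    KummersLemma p K := by
  classical
  have hpp : p.Prime := hpf.out
  have : NeZero p := ⟨hpp.ne_zero⟩
  have hp3 : 3 ≤ p := by
    have := hpp.two_le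
    omega
  have hζ := IsCyclotomicExtension.zeta_spec p ℚ K
  obtain ⟨D, hD1, hD2, hD3⟩ := exists_logDer hp hζ
  set d := (p - 1) / 2 with hd
  obtain ⟨g, hg⟩ : ∃ g : Fin d → (𝓞 K)ˣ, ∀ u : (𝓞 K)ˣ, ∃ n : Fin d → ℤ, u = ∏ i, g i ^ n i :=
    exists_generators_units hp (K := K)
  have hd1 : 1 ≤ d := by omega
  have hdp : d < p := by omega
  have hζ' : IsPrimitiveRoot hζ.toInteger p := hζ.toInteger_isPrimitiveRoot
  have hζunit : IsUnit hζ.toInteger := hζ'.isUnit hpp.ne_zero
  have hgeom : ∀ a : ℕ, 2 ≤ a ∧ a < p → IsUnit (∑ j ∈ Finset.range a, hζ.toInteger ^ j) := by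
    rintro a ⟨ha1, hap⟩
    refine hζ'.geom_sum_isUnit hpp.two_le ?_
    exact ((Nat.Prime.coprime_iff_not_dvd hpp).2
      (Nat.not_dvd_of_pos_of_lt (by omega) hap)).symm
  -- the units `ζ, g_2(ζ), …`
  let W : ℕ → (𝓞 K)ˣ := fun a =>
    if a = 1 then hζunit.unit else if h : 2 ≤ a ∧ a < p then (hgeom a h).unit else 1
  have hW1 : ((W 1 : (𝓞 K)ˣ) : 𝓞 K) = hζ.toInteger := by
    simp [W]
  have hWa : ∀ a, 2 ≤ a → a < p → ((W a : (𝓞 K)ˣ) : 𝓞 K) = aeval hζ.toInteger (gpolyZ a) := by
    intro a h2 hap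
    have hne : a ≠ 1 := by omega
    simp only [W, hne, if_false, dif_pos (And.intro h2 hap), IsUnit.unit_spec, aeval_gpolyZ]
  let T : ℕ → LogTarget p := fun a => Multiplicative.toAdd (D (W a))
  have hT1 : T 1 = 1 := by
    simp only [T]
    rw [hD2 (W 1) hW1]
    rfl
  let q : (ZMod p)[X] →+* LogTarget p := Ideal.Quotient.mk _
  have hTa : ∀ a, 2 ≤ a → a < p → T a * q (gpoly p a) = q (X * derivative (gpoly p a)) := by
    intro a h2 hap
    have := hD3 (W a) (gpolyZ a) (hWa a h2 hap)
    rw [gpolyZ_map] at this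
    exact this
  refine fun u a hu => eq_pow_of_map_eq_one (p := p) (d := d) (M := LogTarget p) ?_ g hg D
    (fun i => W (i.val + 1)) ?_ u (hD1 u a hu)
  · -- `LogTarget p` is killed by `p`
    intro x
    rw [nsmul_eq_mul]
    have : ((p : ℕ) : LogTarget p) = 0 := by
      have h0 : ((p : ℕ) : (ZMod p)[X]) = 0 := by
        rw [← map_natCast (C : ZMod p →+* (ZMod p)[X]), ZMod.natCast_self, map_zero]
      rw [← map_natCast q, h0, map_zero]
    rw [this, zero_mul]
  · -- independence from the certificate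
    intro e he i
    let e' : ℕ → ℤ := fun a => if h : 1 ≤ a ∧ a ≤ d then e ⟨a - 1, by omega⟩ else 0
    have he'i : ∀ j : Fin d, e' (j.val + 1) = e j := by
      intro j
      have hj : 1 ≤ j.val + 1 ∧ j.val + 1 ≤ d := ⟨by omega, by have := j.isLt; omega⟩
      simp only [e', dif_pos hj]
      congr 1
    -- rewrite the product over `Fin d` as a product over `Icc 1 d`
    have hprod : ∏ j : Fin d, W (j.val + 1) ^ e j = ∏ a ∈ Finset.Icc 1 d, W a ^ e' a := by
      have h1 : ∏ j : Fin d, W (j.val + 1) ^ e j =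
          ∏ j : Fin d, (fun n => W (n + 1) ^ e' (n + 1)) j.val := by
        refine Finset.prod_congr rfl fun j _ => ?_
        simp only [he'i]
      rw [h1, Fin.prod_univ_eq_prod_range (fun n => W (n + 1) ^ e' (n + 1)) d,
        Finset.range_eq_Ico, Finset.prod_Ico_add' (fun a => W a ^ e' a) 0 d 1]
      rfl
    rw [hprod, map_prod] at he
    have hsum : ∑ a ∈ Finset.Icc 1 d, (e' a : LogTarget p) * T a = 0 := by
      have := congrArg Multiplicative.toAdd he
      rw [toAdd_prod] at this
      simp only [map_zpow, toAdd_zpow, zsmul_eq_mul, toAdd_one] at this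
      exact this
    -- the key polynomial vanishes in `LogTarget p`
    have hIcc : Finset.Icc 1 d = insert 1 (Finset.Icc 2 d) := by
      ext a
      simp only [Finset.mem_Icc, Finset.mem_insert]
      omega
    have h1notin : (1 : ℕ) ∉ Finset.Icc 2 d := by simp
    have hkey : q (kummerPoly p e') = 0 := by
      have hexp : q (kummerPoly p e') =
          (∑ a ∈ Finset.Icc 1 d, (e' a : LogTarget p) * T a) *
            ∏ b ∈ Finset.Icc 2 d, q (gpoly p b) := by
        rw [hIcc, Finset.sum_insert h1notin, add_mul, Finset.sum_mul, hT1, mul_one]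
        simp only [kummerPoly, map_add, map_mul, map_sum, map_prod, ← hd]
        have hC : ∀ n : ℤ, q (C ((n : ℤ) : ZMod p)) = ((n : ℤ) : LogTarget p) := by
          intro n
          have h1 : (C ((n : ℤ) : ZMod p) : (ZMod p)[X]) = ((n : ℤ) : (ZMod p)[X]) :=
            map_intCast (C : ZMod p →+* (ZMod p)[X]) n
          rw [h1]
          exact map_intCast q n
        refine congrArg₂ (· + ·) ?_ (Finset.sum_congr rfl fun a ha => ?_)
        · rw [hC]
        · have ha2 : 2 ≤ a := (Finset.mem_Icc.mp ha).1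
          have hap : a < p := lt_of_le_of_lt (Finset.mem_Icc.mp ha).2 hdp
          have hT := hTa a ha2 hap
          simp only [map_mul] at hT
          rw [← hT, ← Finset.mul_prod_erase _ _ ha, hC]
          ring
      rw [hexp, hsum, zero_mul]
    have hdvd : (X - 1 : (ZMod p)[X]) ^ (p - 2) ∣ kummerPoly p e' := by
      rw [← Ideal.mem_span_singleton]
      exact Ideal.Quotient.eq_zero_iff_mem.mp hkey
    have := hcert e' hdvd (i.val + 1) (Finset.mem_Icc.mpr ⟨by omega, by have := i.isLt; omega⟩)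
    rwa [he'i] at this

end Fermat.Agent.Lib.FltSmall
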