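import Mathlib

/-!
# `ℤ[ζ₁₁]` is a principal ideal domain (FLT-small, W3b)

Minkowski bound `< 59`; the only primes `ℓ ≤ 58` having a prime of `𝓞 K` above them of norm `≤ 58`
are `11` (ramified, generated by `ζ - 1`) and `23` (totally split). A prime over `23` is generated by
`1 + ζ + ζ ^ 3`, whose norm is `23`: the product of its ten Galois conjugates is `23`.
-/

namespace Fermat.Agent.Lib.FltSmall

section Minkowski
open NumberField Ideal Polynomial InfinitePlace Nat Real Module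

/-- The Minkowski bound of `ℚ(ζ₁₁)` is `< 59`. -/
theorem minkowski_eleven_lt (K : Type) [Field K] [NumberField K] [IsCyclotomicExtension {11} ℚ K] :
    (4 / π) ^ nrComplexPlaces K *
      ((finrank ℚ K)! / (finrank ℚ K) ^ (finrank ℚ K) * √|(discr K : ℝ)|) < 59 := by
  have : Fact (Nat.Prime 11) := ⟨by norm_num⟩
  have h1 : discr K = -(11 : ℤ) ^ 9 := by
    rw [IsCyclotomicExtension.Rat.discr_prime 11 K]; norm_num
  have h2 : finrank ℚ K = 10 := by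
    rw [IsCyclotomicExtension.finrank (n := 11) K (cyclotomic.irreducible_rat (by simp)),
      totient_prime (by norm_num)]
  have h3 : nrComplexPlaces K = 5 := by
    rw [IsCyclotomicExtension.Rat.nrComplexPlaces_eq_totient_div_two 11, totient_prime (by norm_num)]
  rw [h1, h2, h3]
  have hsq : √|((-(11 : ℤ) ^ 9 : ℤ) : ℝ)| < 48559 := by
    rw [Real.sqrt_lt' (by norm_num)]
    norm_num
  have hpi : (4 / π) ^ 5 ≤ (4 / 3.1415) ^ 5 := by
    gcongr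
    exact pi_gt_d4.le
  have hfac : ((10 : ℕ)! : ℝ) = 3628800 := by
    norm_num [Nat.factorial]
  calc (4 / π) ^ 5 * (((10 : ℕ)! : ℝ) / ((10 : ℕ) : ℝ) ^ 10 * √|((-(11 : ℤ) ^ 9 : ℤ) : ℝ)|)
      ≤ (4 / 3.1415) ^ 5 * (((10 : ℕ)! : ℝ) / ((10 : ℕ) : ℝ) ^ 10 * 48559) := by
        gcongr
    _ < 59 := by
        rw [hfac]; norm_num

end Minkowski

section Generic
open NumberField Ideal Polynomial Module

/-- If `α : 𝓞 K` has norm `± ℓ` with `ℓ` a prime number, then `span {α}` is a prime ideal lying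
over `ℓ`. -/
theorem span_singleton_mem_primesOver_of_natAbs_norm_eq {K : Type*} [Field K] [NumberField K]
    {ℓ : ℕ} (hℓ : ℓ.Prime) (α : 𝓞 K) (h : (Algebra.norm ℤ α).natAbs = ℓ) :
    span {α} ∈ primesOver (span {(ℓ : ℤ)}) (𝓞 K) := by
  have habs : absNorm (span {α}) = ℓ := by rw [absNorm_span_singleton, h]
  have hprime : (span {α}).IsPrime := isPrime_of_irreducible_absNorm (habs ▸ hℓ)
  refine ⟨hprime, ⟨?_⟩⟩
  have hmax : (span {(ℓ : ℤ)}).IsMaximal :=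
    PrincipalIdealRing.isMaximal_of_irreducible (Nat.prime_iff_prime_int.mp hℓ).irreducible
  refine hmax.eq_of_le (comap_ne_top _ hprime.ne_top) ?_
  rw [span_le, Set.singleton_subset_iff]
  show algebraMap ℤ (𝓞 K) (ℓ : ℤ) ∈ span {α}
  have := absNorm_mem (span {α})
  rw [habs] at this
  simpa using this

end Generic

section Norm
open NumberField Ideal Polynomial Module

section
variable (K : Type) [Field K] [NumberField K] [IsCyclotomicExtension {11} ℚ K]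

/-- The element `1 + ζ + ζ ^ 3` of `ℚ(ζ₁₁)` has norm `23` or `-23` (in fact `23`). -/
theorem norm_eleven_aux :
    (Algebra.norm ℚ (1 + IsCyclotomicExtension.zeta 11 ℚ K +
      IsCyclotomicExtension.zeta 11 ℚ K ^ 3)) ^ 10 = 23 ^ 10 := by
  set ζ := IsCyclotomicExtension.zeta 11 ℚ K with hζdef
  have hζ : IsPrimitiveRoot ζ 11 := IsCyclotomicExtension.zeta_spec 11 ℚ K
  have hirr : Irreducible (cyclotomic 11 ℚ) := cyclotomic.irreducible_rat (by norm_num)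
  have hζ2 : IsPrimitiveRoot (ζ ^ 2) 11 := hζ.pow_of_coprime 2 (by norm_num)
  set σ := IsCyclotomicExtension.fromZetaAut hζ2 hirr with hσdef
  have hσ : σ ζ = ζ ^ 2 := IsCyclotomicExtension.fromZetaAut_spec hζ2 hirr
  have h11 : ζ ^ 11 = 1 := hζ.pow_eq_one
  have hΦ : 1 + ζ + ζ ^ 2 + ζ ^ 3 + ζ ^ 4 + ζ ^ 5 + ζ ^ 6 + ζ ^ 7 + ζ ^ 8 + ζ ^ 9 + ζ ^ 10 = 0 := by
    have := hζ.geom_sum_eq_zero (by norm_num)
    simpa [Finset.sum_range_succ] using this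
  have hs : ∀ k : ℕ, σ (ζ ^ k) = ζ ^ (2 * k) := by
    intro k; rw [map_pow, hσ, ← pow_mul]
  have hs1 : σ ζ = ζ ^ 2 := hσ
  -- the orbit
  have e1 : σ (1 + ζ + ζ ^ 3) = 1 + ζ ^ 2 + ζ ^ 6 := by
    rw [map_add, map_add, map_one, hs, hs1]
  have e2 : σ (1 + ζ ^ 2 + ζ ^ 6) = 1 + ζ ^ 4 + ζ := by
    rw [map_add, map_add, map_one, hs, hs]; linear_combination ζ * h11
  have e3 : σ (1 + ζ ^ 4 + ζ) = 1 + ζ ^ 8 + ζ ^ 2 := by
    rw [map_add, map_add, map_one, hs, hs1]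
  have e4 : σ (1 + ζ ^ 8 + ζ ^ 2) = 1 + ζ ^ 5 + ζ ^ 4 := by
    rw [map_add, map_add, map_one, hs, hs]; linear_combination ζ ^ 5 * h11
  have e5 : σ (1 + ζ ^ 5 + ζ ^ 4) = 1 + ζ ^ 10 + ζ ^ 8 := by
    rw [map_add, map_add, map_one, hs, hs]
  have e6 : σ (1 + ζ ^ 10 + ζ ^ 8) = 1 + ζ ^ 9 + ζ ^ 5 := by
    rw [map_add, map_add, map_one, hs, hs]; linear_combination (ζ ^ 9 + ζ ^ 5) * h11
  have e7 : σ (1 + ζ ^ 9 + ζ ^ 5) = 1 + ζ ^ 7 + ζ ^ 10 := by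
    rw [map_add, map_add, map_one, hs, hs]; linear_combination ζ ^ 7 * h11
  have e8 : σ (1 + ζ ^ 7 + ζ ^ 10) = 1 + ζ ^ 3 + ζ ^ 9 := by
    rw [map_add, map_add, map_one, hs, hs]; linear_combination (ζ ^ 3 + ζ ^ 9) * h11
  have e9 : σ (1 + ζ ^ 3 + ζ ^ 9) = 1 + ζ ^ 6 + ζ ^ 7 := by
    rw [map_add, map_add, map_one, hs, hs]; linear_combination ζ ^ 7 * h11
  have hprod : (1 + ζ + ζ ^ 3) * (1 + ζ ^ 2 + ζ ^ 6) * (1 + ζ ^ 4 + ζ) * (1 + ζ ^ 8 + ζ ^ 2) *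
      (1 + ζ ^ 5 + ζ ^ 4) * (1 + ζ ^ 10 + ζ ^ 8) * (1 + ζ ^ 9 + ζ ^ 5) * (1 + ζ ^ 7 + ζ ^ 10) *
      (1 + ζ ^ 3 + ζ ^ 9) * (1 + ζ ^ 6 + ζ ^ 7) = 23 := by
    linear_combination ((-22) + (24*ζ) + (1*ζ^2) + (3*ζ^3) + (2*ζ^4) + (4*ζ^5) + (7*ζ^6) + (8*ζ^7) + (10*ζ^8) + (16*ζ^9) + (17*ζ^10) + (1*ζ^11) + (52*ζ^12) + (34*ζ^13) + (45*ζ^14) + (50*ζ^15) + (65*ζ^16) + (69*ζ^17) + (84*ζ^18) + (92*ζ^19) + (104*ζ^20) + (120*ζ^21) + (119*ζ^22) + (166*ζ^23) + (161*ζ^24) + (173*ζ^25) + (178*ζ^26) + (191*ζ^27) + (201*ζ^28) + (210*ζ^29) + (210*ζ^30) + (220*ζ^31) + (220*ζ^32) + (211*ζ^33) + (226*ζ^34) + (215*ζ^35) + (191*ζ^36) + (196*ζ^37) + (186*ζ^38) + (171*ζ^39) + (157*ζ^40) + (152*ζ^41) + (127*ζ^42) + (116*ζ^43) + (104*ζ^44) + (96*ζ^45) + (72*ζ^46) + (64*ζ^47) + (60*ζ^48) + (44*ζ^49) + (33*ζ^50) + (32*ζ^51) + (23*ζ^52) + (13*ζ^53) + (15*ζ^54) + (10*ζ^55) + (5*ζ^56) + (5*ζ^57) + (4*ζ^58) + (1*ζ^59)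 + (1*ζ^60) + (1*ζ^61)) * hΦ
  have hN := congrArg (Algebra.norm ℚ) hprod
  simp only [map_mul] at hN
  rw [← e9, Algebra.norm_eq_of_algEquiv, ← e8, Algebra.norm_eq_of_algEquiv,
    ← e7, Algebra.norm_eq_of_algEquiv, ← e6, Algebra.norm_eq_of_algEquiv,
    ← e5, Algebra.norm_eq_of_algEquiv, ← e4, Algebra.norm_eq_of_algEquiv,
    ← e3, Algebra.norm_eq_of_algEquiv, ← e2, Algebra.norm_eq_of_algEquiv,
    ← e1, Algebra.norm_eq_of_algEquiv] at hN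
  have h23 : Algebra.norm ℚ (23 : K) = 23 ^ 10 := by
    have h2 : finrank ℚ K = 10 := by
      rw [IsCyclotomicExtension.finrank (n := 11) K hirr, Nat.totient_prime (by norm_num)]
    have : (23 : K) = algebraMap ℚ K 23 := by simp
    rw [this, Algebra.norm_algebraMap, h2]
  rw [h23] at hN
  rw [← hN]; ring

end

open NumberField Ideal Polynomial Module

section
variable (K : Type) [Field K] [NumberField K] [IsCyclotomicExtension {11} ℚ K]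

theorem natAbs_norm_eleven :
    (Algebra.norm ℤ (1 + (IsCyclotomicExtension.zeta_spec 11 ℚ K).toInteger +
      (IsCyclotomicExtension.zeta_spec 11 ℚ K).toInteger ^ 3 : 𝓞 K)).natAbs = 23 := by
  set α : 𝓞 K := 1 + (IsCyclotomicExtension.zeta_spec 11 ℚ K).toInteger +
      (IsCyclotomicExtension.zeta_spec 11 ℚ K).toInteger ^ 3 with hα
  have h := norm_eleven_aux K
  have hcoe : ((α : 𝓞 K) : K) = 1 + IsCyclotomicExtension.zeta 11 ℚ K +
      IsCyclotomicExtension.zeta 11 ℚ K ^ 3 := by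
    rw [hα]; push_cast
    rfl
  rw [← hcoe, ← Algebra.coe_norm_int] at h
  have h' : (Algebra.norm ℤ α) ^ 10 = 23 ^ 10 := by exact_mod_cast h
  have h'' : (Algebra.norm ℤ α).natAbs ^ 10 = 23 ^ 10 := by
    have := congrArg Int.natAbs h'
    simpa [Int.natAbs_pow] using this
  exact Nat.pow_left_injective (by norm_num : 10 ≠ 0) h''

end

end Norm

section Main
/-- Finite check: a prime `ℓ ≤ 58` different from `11` and `23` has no power `ℓ ^ f ≤ 58`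
with `f ≥ 1` congruent to `1` mod `11`. -/
theorem pow_check_eleven : ∀ ℓ : ℕ, ℓ ≤ 58 → ∀ f : ℕ, f ≤ 5 →
    (ℓ.Prime ∧ ℓ ≠ 11 ∧ ℓ ≠ 23 ∧ 0 < f ∧ (((ℓ : ℕ) : ZMod 11) ^ f = 1)) → 58 < ℓ ^ f := by
  decide

open NumberField Ideal Polynomial Module InfinitePlace Nat Real

theorem pid_eleven (K : Type) [Field K] [NumberField K] [IsCyclotomicExtension {11} ℚ K] :
    IsPrincipalIdealRing (𝓞 K) := by
  have : Fact (Nat.Prime 11) := ⟨by norm_num⟩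
  have hgal : IsGalois ℚ K := IsCyclotomicExtension.isGalois {11} ℚ K
  have hM : ⌊(4 / π) ^ nrComplexPlaces K *
      ((finrank ℚ K)! / (finrank ℚ K) ^ (finrank ℚ K) * √|(discr K : ℝ)|)⌋₊ ≤ 58 := by
    apply Nat.le_of_lt_succ
    rw [Nat.floor_lt (by positivity)]
    exact_mod_cast minkowski_eleven_lt K
  apply RingOfIntegers.isPrincipalIdealRing_of_isPrincipal_of_lt_or_isPrincipal_of_mem_primesOver_of_mem_Icc
  intro ℓ hℓ hℓp
  rw [Finset.mem_Icc] at hℓ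
  have hℓ58 : ℓ ≤ 58 := hℓ.2.trans hM
  have : Fact ℓ.Prime := ⟨hℓp⟩
  obtain ⟨⟨P, hP1, hP2⟩⟩ := (span {(ℓ : ℤ)}).nonempty_primesOver (S := 𝓞 K)
  by_cases h11 : ℓ = 11
  · subst h11
    refine ⟨P, ⟨hP1, hP2⟩, Or.inr ?_⟩
    rw [IsCyclotomicExtension.Rat.eq_span_zeta_sub_one_of_liesOver' 11 K
      (IsCyclotomicExtension.zeta_spec 11 ℚ K) P]
    exact ⟨_, rfl⟩
  by_cases h23 : ℓ = 23
  · subst h23
    exact ⟨_, span_singleton_mem_primesOver_of_natAbs_norm_eq (by norm_num) _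
      (natAbs_norm_eleven K), Or.inr ⟨_, rfl⟩⟩
  · refine ⟨P, ⟨hP1, hP2⟩, Or.inl ?_⟩
    have hnd : ¬ ℓ ∣ 11 := by
      intro h
      exact h11 ((Nat.prime_dvd_prime_iff_eq hℓp (by norm_num)).mp h)
    rw [IsCyclotomicExtension.Rat.inertiaDeg_eq_of_not_dvd ℓ K P hnd]
    refine lt_of_le_of_lt hM ?_
    set f := orderOf (ℓ : ZMod 11) with hf
    have hunit : IsUnit (ℓ : ZMod 11) := by
      rw [ZMod.isUnit_iff_coprime]
      exact (Nat.coprime_primes hℓp (by norm_num)).mpr h11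
    have hfpos : 0 < f := by
      obtain ⟨u, hu⟩ := hunit
      rw [hf, ← hu, orderOf_units]
      exact orderOf_pos u
    have hpow : (ℓ : ZMod 11) ^ f = 1 := pow_orderOf_eq_one _
    by_contra hlt
    rw [not_lt] at hlt
    have hf5 : f ≤ 5 := by
      by_contra h6
      rw [not_le] at h6
      have : 2 ^ 6 ≤ ℓ ^ f := by
        calc 2 ^ 6 ≤ ℓ ^ 6 := Nat.pow_le_pow_left hℓp.two_le 6
          _ ≤ ℓ ^ f := Nat.pow_le_pow_right hℓp.pos h6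
      omega
    have := pow_check_eleven ℓ hℓ58 f hf5 ⟨hℓp, h11, h23, hfpos, hpow⟩
    omega

end Main

end Fermat.Agent.Lib.FltSmall
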