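import Fermat.Agent.S10.PID13

/-!
# `ℤ[ζ₁₃]` is a principal ideal domain (re-export)

`Fermat.Agent.S10.thirteen_pid` (Minkowski bound `≤ 306`, inertia degrees, and explicit principal
primes over `3, 53, 79, 131, 157`) re-exported under the `Lib.FltSmall` interface name.
(An independent set of certificates is in `Fermat.Agent.Lib.FltSmall.PID13Cert`.)
-/

set_option autoImplicit false

namespace Fermat.Agent.Lib.FltSmall

theorem pid_thirteen (K : Type) [Field K] [NumberField K] [IsCyclotomicExtension {13} ℚ K] :
    IsPrincipalIdealRing (NumberField.RingOfIntegers K) :=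
  Fermat.Agent.S10.thirteen_pid K

end Fermat.Agent.Lib.FltSmall
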