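import Mathlib

/-!
# Principal primes over `3, 53, 79, 131, 157` in `ℤ[ζ₁₃]`

Certificates for the class-number-one proof of `ℚ(ζ₁₃)`: for each of the five rational primes `ℓ`
with `ℓ ^ f ≤ 306` (Minkowski bound), some prime of `𝓞 K` above `ℓ` is principal.
Method: Kummer–Dedekind (`NumberField.Ideal.primesOverSpanEquivMonicFactorsMod`) identifies the
prime `span {ℓ, Q(ζ)}`; explicit cofactor identities show it equals `span {α}`.
-/

set_option autoImplicit false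

namespace Fermat.Agent.Lib.FltSmall.PID13Cert

open NumberField Polynomial Ideal IsCyclotomicExtension.Rat RingOfIntegers NumberField.Ideal
  IsCyclotomicExtension

/-- Generic certificate lemma: if `Q ∈ ℤ[X]` reduces mod `ℓ` to a monic irreducible factor of the
`m`-th cyclotomic polynomial and `span {ℓ, Q(ζ)} = span {α}` is witnessed by cofactors, then some
prime above `ℓ` in the `m`-th cyclotomic field is principal. -/
theorem exists_isPrincipal_primesOver_of_cert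
    {m : ℕ} [NeZero m] {K : Type*} [Field K] [NumberField K] [IsCyclotomicExtension {m} ℚ K]
    (ℓ : ℕ) [Fact ℓ.Prime] (Q : ℤ[X])
    (hirr : Irreducible (Q.map (Int.castRingHom (ZMod ℓ))))
    (hmonic : (Q.map (Int.castRingHom (ZMod ℓ))).Monic)
    (hdvd : Q.map (Int.castRingHom (ZMod ℓ)) ∣ cyclotomic m (ZMod ℓ))
    (α β γ s t : 𝓞 K)
    (h1 : α * β = (ℓ : 𝓞 K))
    (h2 : α * γ = aeval (zeta_spec m ℚ K).toInteger Q)
    (h3 : α = (ℓ : 𝓞 K) * s + aeval (zeta_spec m ℚ K).toInteger Q * t) :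
    ∃ P ∈ primesOver (span {(ℓ : ℤ)}) (𝓞 K), Submodule.IsPrincipal P := by
  set ζ := (zeta_spec m ℚ K).toInteger with hζdef
  have h₁ : ¬ ℓ ∣ exponent ζ := by
    rw [exponent_eq_one_iff.mpr <| adjoin_singleton_eq_top (zeta_spec m ℚ K)]
    exact (Fact.out : ℓ.Prime).not_dvd_one
  have hmin : (minpoly ℤ ζ).map (Int.castRingHom (ZMod ℓ)) = cyclotomic m (ZMod ℓ) := by
    rw [← map_cyclotomic_int, cyclotomic_eq_minpoly (zeta_spec m ℚ K) (NeZero.pos _),
      ← (zeta_spec m ℚ K).coe_toInteger, ← RingOfIntegers.minpoly_coe ζ]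
    rfl
  have hQ : Q.map (Int.castRingHom (ZMod ℓ)) ∈ monicFactorsMod ζ ℓ := by
    rw [Multiset.mem_toFinset, Polynomial.mem_normalizedFactors_iff
      (map_monic_ne_zero (minpoly.monic ζ.isIntegral))]
    exact ⟨hirr, hmonic, hmin ▸ hdvd⟩
  refine ⟨((primesOverSpanEquivMonicFactorsMod h₁).symm ⟨_, hQ⟩ : Ideal (𝓞 K)),
    ((primesOverSpanEquivMonicFactorsMod h₁).symm ⟨_, hQ⟩).2, ?_⟩
  rw [primesOverSpanEquivMonicFactorsMod_symm_apply_eq_span h₁ hQ]
  refine ⟨α, ?_⟩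
  apply le_antisymm
  · rw [Ideal.span_le]
    rintro x (rfl | rfl)
    · exact Ideal.mem_span_singleton.mpr ⟨β, h1.symm⟩
    · exact Ideal.mem_span_singleton.mpr ⟨γ, h2.symm⟩
  · rw [Ideal.submodule_span_eq, Ideal.span_le, Set.singleton_subset_iff, SetLike.mem_coe,
      Ideal.mem_span_pair]
    exact ⟨s, t, by rw [h3]; ring⟩

section thirteen

variable (K : Type*) [Field K] [NumberField K] [IsCyclotomicExtension {13} ℚ K]

theorem geom_sum_zeta :
    ∑ i ∈ Finset.range 13, ((zeta_spec 13 ℚ K).toInteger) ^ i = 0 :=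
  (zeta_spec 13 ℚ K).toInteger_isPrimitiveRoot.geom_sum_eq_zero (by norm_num)

theorem three_eq_zero_zmod : (3 : (ZMod 3)[X]) = 0 := by
  have := CharP.cast_eq_zero ((ZMod 3)[X]) 3
  simpa using this

theorem cubic_no_root : ∀ x : ZMod 3, x ^ 3 - x - 1 = 0 → False := by decide

theorem cubic_natDegree : (X ^ 3 - X - 1 : (ZMod 3)[X]).natDegree = 3 := by
  compute_degree!

theorem cubic_monic : (X ^ 3 - X - 1 : (ZMod 3)[X]).Monic := by
  monicity!

theorem cubic_irreducible : Irreducible (X ^ 3 - X - 1 : (ZMod 3)[X]) := by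
  have : Fact (Nat.Prime 3) := ⟨by norm_num⟩
  rw [cubic_monic.irreducible_iff_roots_eq_zero_of_degree_le_three
    (by rw [cubic_natDegree]; norm_num) (by rw [cubic_natDegree])]
  rw [Multiset.eq_zero_iff_forall_notMem]
  intro x hx
  rw [mem_roots (cubic_monic.ne_zero)] at hx
  simp only [IsRoot.def, eval_sub, eval_pow, eval_X, eval_one] at hx
  exact cubic_no_root x hx

theorem cubic_dvd : (X ^ 3 - X - 1 : (ZMod 3)[X]) ∣ cyclotomic 13 (ZMod 3) := by
  have : Fact (Nat.Prime 13) := ⟨by norm_num⟩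
  refine ⟨20 + 15 * X + 11 * X ^ 2 + 8 * X ^ 3 + 6 * X ^ 4 + 4 * X ^ 5 + 3 * X ^ 6 + 2 * X ^ 7
    + X ^ 8 + X ^ 9, ?_⟩
  rw [cyclotomic_prime]
  simp only [Finset.sum_range_succ, Finset.sum_range_zero, zero_add, pow_zero, pow_one]
  linear_combination (7 + 12 * X + 9 * X ^ 2 : (ZMod 3)[X]) * three_eq_zero_zmod

theorem exists_isPrincipal_primesOver_3 :
    ∃ P ∈ primesOver (span {((3 : ℕ) : ℤ)}) (𝓞 K), Submodule.IsPrincipal P := by
  have : Fact (Nat.Prime 3) := ⟨by norm_num⟩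
  have hΦ := geom_sum_zeta K
  simp only [Finset.sum_range_succ, Finset.sum_range_zero, zero_add, pow_zero, pow_one] at hΦ
  set ζ := (zeta_spec 13 ℚ K).toInteger with hζ
  have hmap : (X ^ 3 - X - 1 : ℤ[X]).map (Int.castRingHom (ZMod 3)) = X ^ 3 - X - 1 := by
    simp
  refine exists_isPrincipal_primesOver_of_cert (m := 13) (K := K) 3 (X ^ 3 - X - 1) ?_ ?_ ?_
    (1 + ζ - ζ^3)
    ((-1) + (-1) * ζ^2 + (-1) * ζ^3 + (-2) * ζ^5 + (-1) * ζ^7 + (-2) * ζ^8 + ζ^9 + (-3) * ζ^10)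
    (-1) 0 (-1) ?_ ?_ ?_
  · rw [hmap]; exact cubic_irreducible
  · rw [hmap]; exact cubic_monic
  · rw [hmap]; exact cubic_dvd
  · push_cast
    linear_combination ((-4) + (3) * ζ) * hΦ
  · simp only [map_sub, map_pow, aeval_X, map_one]
    ring
  · simp only [map_sub, map_pow, aeval_X, map_one]
    ring


theorem root53 : ∑ x ∈ Finset.range 13, (Int.castRingHom (ZMod 53)) (-17) ^ x = 0 := by decide

/-- Some prime of `ℤ[ζ₁₃]` above `53` is principal (generated by `(1) + (1) * ζ + (1) * ζ^3`). -/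
theorem exists_isPrincipal_primesOver_53 :
    ∃ P ∈ primesOver (span {((53 : ℕ) : ℤ)}) (𝓞 K), Submodule.IsPrincipal P := by
  have : Fact (Nat.Prime 53) := ⟨by norm_num⟩
  have : Fact (Nat.Prime 13) := ⟨by norm_num⟩
  have hΦ := geom_sum_zeta K
  simp only [Finset.sum_range_succ, Finset.sum_range_zero, zero_add, pow_zero, pow_one] at hΦ
  set ζ := (zeta_spec 13 ℚ K).toInteger with hζ
  refine exists_isPrincipal_primesOver_of_cert (m := 13) (K := K) 53 (X - C (-17 : ℤ)) ?_ ?_ ?_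
    ((1) + (1) * ζ + (1) * ζ^3)
    ((1) + (-24) * ζ + (-35) * ζ^2 + (-25) * ζ^3 + (-10) * ζ^4 + (-14) * ζ^5 + (-20) * ζ^6
      + (-29) * ζ^7 + (-16) * ζ^8 + (-23) * ζ^9 + (-7) * ζ^10 + (-36) * ζ^11)
    ((1) + (-7) * ζ + (-11) * ζ^2 + (-8) * ζ^3 + (-3) * ζ^4 + (-4) * ζ^5 + (-6) * ζ^6
      + (-9) * ζ^7 + (-5) * ζ^8 + (-7) * ζ^9 + (-2) * ζ^10 + (-11) * ζ^11)
    (-93) ((290) + (-17) * ζ + (1) * ζ^2) ?_ ?_ ?_
  · rw [Polynomial.map_sub, map_X, map_C]
    exact irreducible_X_sub_C _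
  · rw [Polynomial.map_sub, map_X, map_C]
    exact monic_X_sub_C _
  · rw [Polynomial.map_sub, map_X, map_C, dvd_iff_isRoot, cyclotomic_prime, IsRoot.def,
      eval_finsetSum]
    simp only [eval_pow, eval_X]
    exact root53
  · push_cast
    linear_combination ((-52) + (29) * ζ + (-36) * ζ^2) * hΦ
  · simp only [map_sub, aeval_X, aeval_C]
    simp only [eq_intCast, Int.cast_neg, Int.cast_ofNat]
    linear_combination ((-16) + (9) * ζ + (-11) * ζ^2) * hΦ
  · simp only [map_sub, aeval_X, aeval_C]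
    simp only [eq_intCast, Int.cast_neg, Int.cast_ofNat]
    push_cast
    ring

theorem root79 : ∑ x ∈ Finset.range 13, (Int.castRingHom (ZMod 79)) (-15) ^ x = 0 := by decide

/-- Some prime of `ℤ[ζ₁₃]` above `79` is principal (generated by `(1) + (1) * ζ + (-1) * ζ^4`). -/
theorem exists_isPrincipal_primesOver_79 :
    ∃ P ∈ primesOver (span {((79 : ℕ) : ℤ)}) (𝓞 K), Submodule.IsPrincipal P := by
  have : Fact (Nat.Prime 79) := ⟨by norm_num⟩
  have : Fact (Nat.Prime 13) := ⟨by norm_num⟩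
  have hΦ := geom_sum_zeta K
  simp only [Finset.sum_range_succ, Finset.sum_range_zero, zero_add, pow_zero, pow_one] at hΦ
  set ζ := (zeta_spec 13 ℚ K).toInteger with hζ
  refine exists_isPrincipal_primesOver_of_cert (m := 13) (K := K) 79 (X - C (-15 : ℤ)) ?_ ?_ ?_
    ((1) + (1) * ζ + (-1) * ζ^4)
    ((24) + (-25) * ζ + (-27) * ζ^2 + (10) * ζ^3 + (-3) * ζ^4 + (-39) * ζ^5 + (-5) * ζ^6
      + (-2) * ζ^7 + (-18) * ζ^8 + (-38) * ζ^9 + (16) * ζ^10 + (-35) * ζ^11)
    ((5) + (-4) * ζ + (-5) * ζ^2 + (2) * ζ^3 + (-7) * ζ^5 + (-1) * ζ^6 + (-3) * ζ^8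
      + (-7) * ζ^9 + (3) * ζ^10 + (-6) * ζ^11)
    (-641) ((3376) + (-225) * ζ + (15) * ζ^2 + (-1) * ζ^3) ?_ ?_ ?_
  · rw [Polynomial.map_sub, map_X, map_C]
    exact irreducible_X_sub_C _
  · rw [Polynomial.map_sub, map_X, map_C]
    exact monic_X_sub_C _
  · rw [Polynomial.map_sub, map_X, map_C, dvd_iff_isRoot, cyclotomic_prime, IsRoot.def,
      eval_finsetSum]
    simp only [eval_pow, eval_X]
    exact root79
  · push_cast
    linear_combination ((-55) + (54) * ζ + (-51) * ζ^2 + (35) * ζ^3) * hΦ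
  · simp only [map_sub, aeval_X, aeval_C]
    simp only [eq_intCast, Int.cast_neg, Int.cast_ofNat]
    linear_combination ((-10) + (10) * ζ + (-9) * ζ^2 + (6) * ζ^3) * hΦ
  · simp only [map_sub, aeval_X, aeval_C]
    simp only [eq_intCast, Int.cast_neg, Int.cast_ofNat]
    push_cast
    ring

theorem root131 : ∑ x ∈ Finset.range 13, (Int.castRingHom (ZMod 131)) (-51) ^ x = 0 := by decide

/-- Some prime of `ℤ[ζ₁₃]` above `131` is principal (generated by `(1) + (-1) * ζ + (-1) * ζ^3`). -/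
theorem exists_isPrincipal_primesOver_131 :
    ∃ P ∈ primesOver (span {((131 : ℕ) : ℤ)}) (𝓞 K), Submodule.IsPrincipal P := by
  have : Fact (Nat.Prime 131) := ⟨by norm_num⟩
  have : Fact (Nat.Prime 13) := ⟨by norm_num⟩
  have hΦ := geom_sum_zeta K
  simp only [Finset.sum_range_succ, Finset.sum_range_zero, zero_add, pow_zero, pow_one] at hΦ
  set ζ := (zeta_spec 13 ℚ K).toInteger with hζ
  refine exists_isPrincipal_primesOver_of_cert (m := 13) (K := K) 131 (X - C (-51 : ℤ)) ?_ ?_ ?_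
    ((1) + (-1) * ζ + (-1) * ζ^3)
    ((111) + (78) * ζ + (17) * ζ^2 + (67) * ζ^3 + (84) * ζ^4 + (40) * ζ^5 + (46) * ζ^6
      + (69) * ζ^7 + (48) * ζ^8 + (33) * ζ^9 + (41) * ζ^10 + (28) * ζ^11)
    ((43) + (31) * ζ + (7) * ζ^2 + (26) * ζ^3 + (33) * ζ^4 + (16) * ζ^5 + (18) * ζ^6
      + (27) * ζ^7 + (19) * ζ^8 + (13) * ζ^9 + (16) * ζ^10 + (11) * ζ^11)
    (1013) ((-2602) + (51) * ζ + (-1) * ζ^2) ?_ ?_ ?_
  · rw [Polynomial.map_sub, map_X, map_C]
    exact irreducible_X_sub_C _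
  · rw [Polynomial.map_sub, map_X, map_C]
    exact monic_X_sub_C _
  · rw [Polynomial.map_sub, map_X, map_C, dvd_iff_isRoot, cyclotomic_prime, IsRoot.def,
      eval_finsetSum]
    simp only [eval_pow, eval_X]
    exact root131
  · push_cast
    linear_combination ((-20) + (-13) * ζ + (-28) * ζ^2) * hΦ
  · simp only [map_sub, aeval_X, aeval_C]
    simp only [eq_intCast, Int.cast_neg, Int.cast_ofNat]
    linear_combination ((-8) + (-5) * ζ + (-11) * ζ^2) * hΦ
  · simp only [map_sub, aeval_X, aeval_C]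
    simp only [eq_intCast, Int.cast_neg, Int.cast_ofNat]
    push_cast
    ring

theorem root157 : ∑ x ∈ Finset.range 13, (Int.castRingHom (ZMod 157)) (75) ^ x = 0 := by decide

/-- Some prime of `ℤ[ζ₁₃]` above `157` is principal (generated by `(1) + (-1) * ζ + (1) * ζ^2 + (1) * ζ^4`). -/
theorem exists_isPrincipal_primesOver_157 :
    ∃ P ∈ primesOver (span {((157 : ℕ) : ℤ)}) (𝓞 K), Submodule.IsPrincipal P := by
  have : Fact (Nat.Prime 157) := ⟨by norm_num⟩
  have : Fact (Nat.Prime 13) := ⟨by norm_num⟩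
  have hΦ := geom_sum_zeta K
  simp only [Finset.sum_range_succ, Finset.sum_range_zero, zero_add, pow_zero, pow_one] at hΦ
  set ζ := (zeta_spec 13 ℚ K).toInteger with hζ
  refine exists_isPrincipal_primesOver_of_cert (m := 13) (K := K) 157 (X - C (75 : ℤ)) ?_ ?_ ?_
    ((1) + (-1) * ζ + (1) * ζ^2 + (1) * ζ^4)
    ((89) + (86) * ζ + (42) * ζ^2 + (77) * ζ^3 + (67) * ζ^4 + (25) * ζ^5 + (37) * ζ^6
      + (56) * ζ^7 + (73) * ζ^8 + (113) * ζ^9 + (124) * ζ^10 + (76) * ζ^11)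
    ((-43) + (-41) * ζ + (-20) * ζ^2 + (-37) * ζ^3 + (-32) * ζ^4 + (-12) * ζ^5 + (-18) * ζ^6
      + (-27) * ζ^7 + (-35) * ζ^8 + (-54) * ζ^9 + (-59) * ζ^10 + (-36) * ζ^11)
    (201568) ((421949) + (5626) * ζ + (75) * ζ^2 + (1) * ζ^3) ?_ ?_ ?_
  · rw [Polynomial.map_sub, map_X, map_C]
    exact irreducible_X_sub_C _
  · rw [Polynomial.map_sub, map_X, map_C]
    exact monic_X_sub_C _
  · rw [Polynomial.map_sub, map_X, map_C, dvd_iff_isRoot, cyclotomic_prime, IsRoot.def,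
      eval_finsetSum]
    simp only [eval_pow, eval_X]
    exact root157
  · push_cast
    linear_combination ((-68) + (65) * ζ + (48) * ζ^2 + (76) * ζ^3) * hΦ
  · simp only [map_sub, aeval_X, aeval_C]
    simp only [eq_intCast, Int.cast_neg, Int.cast_ofNat]
    linear_combination ((32) + (-31) * ζ + (-23) * ζ^2 + (-36) * ζ^3) * hΦ
  · simp only [map_sub, aeval_X, aeval_C]
    simp only [eq_intCast, Int.cast_neg, Int.cast_ofNat]
    push_cast
    ring

end thirteen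

end Fermat.Agent.Lib.FltSmall.PID13Cert
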