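/-
Reusable criterion for "the ring of integers of the `p`-th cyclotomic field is a PID"
(serves S10/S11, FLT for small regular primes).  Owner: helper64.
-/
import Mathlib

set_option autoImplicit false

namespace Fermat.Agent.Lib.FltSmall

open NumberField Ideal Module InfinitePlace Nat Real IsCyclotomicExtension.Rat

/-- The Minkowski bound of the `p`-th cyclotomic field (`p` prime), in closed form. -/
noncomputable def minkowskiCyclo (p : ℕ) : ℝ :=
  (4 / π) ^ ((p - 1) / 2) *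
    (((p - 1)! : ℝ) / ((p - 1 : ℕ) : ℝ) ^ (p - 1) * √((p : ℝ) ^ (p - 2)))

/-- The Minkowski bound of the `p`-th cyclotomic field equals `minkowskiCyclo p`. -/
theorem minkowski_eq_minkowskiCyclo (p : ℕ) [hp : Fact p.Prime] (K : Type*) [Field K]
    [NumberField K] [IsCyclotomicExtension {p} ℚ K] :
    (4 / π) ^ nrComplexPlaces K *
      ((finrank ℚ K)! / (finrank ℚ K) ^ (finrank ℚ K) * √|(discr K : ℝ)|) = minkowskiCyclo p := by
  have hpos : 0 < p := hp.out.pos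
  rw [discr_prime p K, IsCyclotomicExtension.finrank (n := p) K
    (Polynomial.cyclotomic.irreducible_rat hpos), nrComplexPlaces_eq_totient_div_two p,
    totient_prime hp.out, minkowskiCyclo]
  congr 3
  push_cast
  rw [abs_mul, abs_pow, abs_neg, abs_one, one_pow, one_mul, abs_pow, Nat.abs_cast]

/-- **PID criterion for prime cyclotomic fields.**  If the Minkowski bound is `< B + 1` and every
prime `ℓ ≤ B` different from `p` either has `B < ℓ ^ (order of ℓ mod p)` or has a principal prime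
above it, then `𝓞 K` is a PID. -/
theorem pid_of_minkowskiCyclo_lt (p : ℕ) [hp : Fact p.Prime] (K : Type*) [Field K] [NumberField K]
    [IsCyclotomicExtension {p} ℚ K] (B : ℕ) (hB : minkowskiCyclo p < B + 1)
    (h : ∀ ℓ ∈ Finset.Icc 1 B, ℓ.Prime → ℓ ≠ p →
      B < ℓ ^ orderOf (ℓ : ZMod p) ∨
        ∃ P ∈ primesOver (span {(ℓ : ℤ)}) (𝓞 K), Submodule.IsPrincipal P) :
    IsPrincipalIdealRing (𝓞 K) := by
  have : IsGalois ℚ K := IsCyclotomicExtension.isGalois {p} ℚ K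
  apply RingOfIntegers.isPrincipalIdealRing_of_isPrincipal_of_lt_or_isPrincipal_of_mem_primesOver_of_mem_Icc
  have hM := minkowski_eq_minkowskiCyclo p K
  have hfloor : ⌊(4 / π) ^ nrComplexPlaces K *
      ((finrank ℚ K)! / (finrank ℚ K) ^ (finrank ℚ K) * √|(discr K : ℝ)|)⌋₊ ≤ B := by
    rw [hM]
    refine Nat.lt_succ_iff.mp ((Nat.floor_lt ?_).mpr (by exact_mod_cast hB))
    rw [minkowskiCyclo]; positivity
  intro ℓ hℓmem hℓ
  have : Fact ℓ.Prime := ⟨hℓ⟩
  by_cases hℓp : ℓ = p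
  · subst hℓp
    obtain ⟨⟨P, hP1, hP2⟩⟩ := (span {(ℓ : ℤ)}).nonempty_primesOver (S := 𝓞 K)
    refine ⟨P, ⟨hP1, hP2⟩, Or.inr ?_⟩
    rw [eq_span_zeta_sub_one_of_liesOver' ℓ K (IsCyclotomicExtension.zeta_spec ℓ ℚ K) P]
    exact ⟨⟨_, rfl⟩⟩
  · have hℓB : ℓ ∈ Finset.Icc 1 B := by
      rw [Finset.mem_Icc] at hℓmem ⊢
      exact ⟨hℓmem.1, hℓmem.2.trans hfloor⟩
    rcases h ℓ hℓB hℓ hℓp with h1 | ⟨P, hP, hPprin⟩
    · obtain ⟨⟨P, hP1, hP2⟩⟩ := (span {(ℓ : ℤ)}).nonempty_primesOver (S := 𝓞 K)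
      refine ⟨P, ⟨hP1, hP2⟩, Or.inl ?_⟩
      have hm : ¬ ℓ ∣ p := fun hd => hℓp ((Nat.prime_dvd_prime_iff_eq hℓ hp.out).mp hd)
      rw [inertiaDeg_eq_of_not_dvd ℓ K P hm]
      exact lt_of_le_of_lt hfloor h1
    · exact ⟨P, hP, Or.inr hPprin⟩

end Fermat.Agent.Lib.FltSmall
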