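/-
`ℤ[ζ₇]` is a PID (Minkowski bound `≈ 4.13`, the primes `2, 3` are inert enough).
Owner: helper64.
-/
import Fermat.Agent.Lib.FltSmall.PIDCriterion

set_option autoImplicit false

namespace Fermat.Agent.Lib.FltSmall

open NumberField Ideal Nat Real

theorem minkowskiCyclo_seven_lt : minkowskiCyclo 7 < 4 + 1 := by
  have hπ : (4 : ℝ) / π < 4 / 3.14 := by
    apply div_lt_div_of_pos_left (by norm_num) (by norm_num) pi_gt_d2
  have hπ0 : (0 : ℝ) ≤ 4 / π := by positivity
  have hsqrt : √((7 : ℝ) ^ 5) < 130 := by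
    rw [Real.sqrt_lt' (by norm_num)]
    norm_num
  rw [minkowskiCyclo]
  have hfac : (7 - 1)! = 720 := by decide
  rw [hfac]
  norm_num only [Nat.cast_ofNat] at *
  have h1 : (4 / π) ^ 3 < (200 / 157 : ℝ) ^ 3 := by
    apply pow_lt_pow_left₀ hπ hπ0 (by norm_num)
  have h2 : (0 : ℝ) < 5 / 324 * √16807 := by positivity
  calc (4 / π) ^ 3 * (5 / 324 * √16807)
      < (200 / 157 : ℝ) ^ 3 * (5 / 324 * √16807) := mul_lt_mul_of_pos_right h1 h2
    _ ≤ (200 / 157 : ℝ) ^ 3 * (5 / 324 * 130) := by gcongr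
    _ < 5 := by norm_num

lemma orderOf_two_zmod_seven : orderOf (2 : ZMod 7) = 3 :=
  haveI : Fact (Nat.Prime 3) := ⟨by norm_num⟩
  orderOf_eq_prime (by decide) (by decide)

lemma orderOf_three_zmod_seven : orderOf (3 : ZMod 7) = 6 := by
  rw [orderOf_eq_iff (by norm_num)]
  refine ⟨by decide, fun m hm hm0 => ?_⟩
  interval_cases m <;> decide

/-- `ℤ[ζ₇]` is a principal ideal domain. -/
theorem pid_seven (K : Type) [Field K] [NumberField K] [IsCyclotomicExtension {7} ℚ K] :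
    IsPrincipalIdealRing (NumberField.RingOfIntegers K) := by
  have : Fact (Nat.Prime 7) := ⟨by norm_num⟩
  refine pid_of_minkowskiCyclo_lt 7 K 4 (by exact_mod_cast minkowskiCyclo_seven_lt) ?_
  intro ℓ hℓ hℓp _
  left
  rw [Finset.mem_Icc] at hℓ
  obtain ⟨h1, h4⟩ := hℓ
  interval_cases ℓ
  · exact absurd hℓp (by norm_num)
  · rw [Nat.cast_ofNat, orderOf_two_zmod_seven]; norm_num
  · rw [Nat.cast_ofNat, orderOf_three_zmod_seven]; norm_num
  · exact absurd hℓp (by norm_num)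

end Fermat.Agent.Lib.FltSmall
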