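import Mathlib
import Fermat.Agent.Lib.FltSmall.Defs
import Fermat.Agent.S11.SophieGermain

/-!
# Sophie Germain's theorem: the first case of Fermat's Last Theorem for `p = 5, 7, 11, 13`

This file restates the results of `Fermat.Agent.S11.SophieGermain` (generic Sophie Germain /
Legendre theorem and the instances `(p, q) = (5, 11), (7, 29), (11, 23), (13, 53)`) in the shape
`Fermat.Agent.Lib.FltSmall.CaseI p`, i.e. without any coprimality hypothesis: the reduction to the
coprime case divides by `gcd a b`.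
-/

set_option autoImplicit false

namespace Fermat.Agent.Lib.FltSmall

/-- Reduction of `CaseI p` to the coprime statement. -/
theorem caseI_of_coprime {p : ℕ} (hp : 0 < p)
    (H : ∀ a b c : ℤ, IsCoprime a b → a ^ p + b ^ p = c ^ p → (p : ℤ) ∣ a * b * c) :
    CaseI p := by
  intro a b c hnd h
  -- the gcd of `a` and `b` is nonzero, otherwise `a = 0`
  have hg0 : (Int.gcd a b : ℤ) ≠ 0 := by
    intro h0
    have h0' : Int.gcd a b = 0 := by exact_mod_cast h0
    rw [Int.gcd_eq_zero_iff] at h0'
    apply hnd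
    rw [h0'.1]
    simp
  obtain ⟨a', ha'⟩ : (Int.gcd a b : ℤ) ∣ a := Int.gcd_dvd_left a b
  obtain ⟨b', hb'⟩ : (Int.gcd a b : ℤ) ∣ b := Int.gcd_dvd_right a b
  set g : ℤ := (Int.gcd a b : ℤ) with hg
  -- `a'` and `b'` are coprime
  have hcop : IsCoprime a' b' := by
    obtain ⟨u, v, huv⟩ : ∃ u v : ℤ, g = a * u + b * v := ⟨_, _, Int.gcd_eq_gcd_ab a b⟩
    refine ⟨u, v, ?_⟩
    have h1 : g * (u * a' + v * b') = g * 1 := by
      calc g * (u * a' + v * b') = (g * a') * u + (g * b') * v := by ring
        _ = a * u + b * v := by rw [← ha', ← hb']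
        _ = g * 1 := by rw [← huv, mul_one]
    exact mul_left_cancel₀ hg0 h1
  -- `g ∣ c`
  have hgc : g ∣ c := by
    have h2 : g ^ p ∣ c ^ p := by
      rw [← h, ha', hb', mul_pow, mul_pow]
      exact dvd_add (dvd_mul_right _ _) (dvd_mul_right _ _)
    exact (Int.pow_dvd_pow_iff hp.ne').mp h2
  obtain ⟨c', hc'⟩ := hgc
  have hgp : g ^ p ≠ 0 := pow_ne_zero p hg0
  have h' : a' ^ p + b' ^ p = c' ^ p := by
    have h3 : g ^ p * (a' ^ p + b' ^ p) = g ^ p * c' ^ p := by
      calc g ^ p * (a' ^ p + b' ^ p) = (g * a') ^ p + (g * b') ^ p := by ring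
        _ = a ^ p + b ^ p := by rw [← ha', ← hb']
        _ = c ^ p := h
        _ = g ^ p * c' ^ p := by rw [hc', mul_pow]
    exact mul_left_cancel₀ hgp h3
  have hd : (p : ℤ) ∣ a' * b' * c' := H a' b' c' hcop h'
  apply hnd
  have h4 : a * b * c = (a' * b' * c') * (g * g * g) := by
    rw [ha', hb', hc']; ring
  rw [h4]
  exact Dvd.dvd.mul_right hd _

/-- **Sophie Germain's theorem** (Legendre's form): if `q` is an auxiliary prime such that
`x ^ p + y ^ p + z ^ p = 0` in `ZMod q` forces `x y z = 0`, and `p` is not a `p`-th power in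
`ZMod q`, then the first case of Fermat's Last Theorem holds for the odd prime `p`. -/
theorem sophieGermain {p q : ℕ} (hp : p.Prime) (hodd : p ≠ 2) [hq : Fact q.Prime]
    (h1 : ∀ x y z : ZMod q, x ^ p + y ^ p + z ^ p = 0 → x = 0 ∨ y = 0 ∨ z = 0)
    (h2 : ∀ x : ZMod q, x ^ p ≠ (p : ZMod q)) : CaseI p :=
  caseI_of_coprime hp.pos fun _ _ _ hab h =>
    Fermat.Agent.S11.sophie_germain' hp hodd hq.out h1 h2 hab h

/-- First case of Fermat's Last Theorem for `p = 5` (auxiliary prime `q = 11`). -/
theorem caseI_five : CaseI 5 :=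
  caseI_of_coprime (by norm_num) fun _ _ _ hab h => Fermat.Agent.S11.caseI_5 hab h

/-- First case of Fermat's Last Theorem for `p = 7` (auxiliary prime `q = 29`). -/
theorem caseI_seven : CaseI 7 :=
  caseI_of_coprime (by norm_num) fun _ _ _ hab h => Fermat.Agent.S11.caseI_7 hab h

/-- First case of Fermat's Last Theorem for `p = 11` (auxiliary prime `q = 23`). -/
theorem caseI_eleven : CaseI 11 :=
  caseI_of_coprime (by norm_num) fun _ _ _ hab h => Fermat.Agent.S11.caseI_11 hab h

/-- First case of Fermat's Last Theorem for `p = 13` (auxiliary prime `q = 53`). -/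
theorem caseI_thirteen : CaseI 13 :=
  caseI_of_coprime (by norm_num) fun _ _ _ hab h => Fermat.Agent.S11.caseI_13 hab h

end Fermat.Agent.Lib.FltSmall
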